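/-
S43lib / LGC / KC / Basic  (helper2)

Linear algebra of a Kummer-type extension `E = E₀[h]`, minimal polynomial `X ^ e - u`:

* `IsKummerGen.basis : Module.Basis (Fin e) E₀ E`, `basis j = h ^ j`;
* `finrank_eq`, `finiteDimensional`, `isSeparable` (for `(e : E₀) ≠ 0`, `u ≠ 0`);
* `sumPow a = ∑ j, a j * h ^ j` and its uniqueness;
* the deck transformation on coordinates: `deck ζ (∑ a_j h^j) = ∑ ζ^j a_j h^j`;
* the trace `∑_{i < e} δ^i f = e • a₀` for a primitive root `ζ`.
-/
import Fermat.Agent.S43lib.LGC.KC.Action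

set_option autoImplicit false
set_option linter.unusedSectionVars false
set_option linter.unusedVariables false

noncomputable section

namespace Fermat.Agent.S43lib.LGC.KC

open Polynomial

namespace IsKummerGen

variable {E₀ E : Type*} [Field E₀] [Field E] [Algebra E₀ E] {e : ℕ} {u : E₀} {h : E}

/-- `∑ j, a j * h ^ j` -/
def sumPow (h : E) (a : Fin e → E₀) : E := ∑ j : Fin e, algebraMap E₀ E (a j) * h ^ (j : ℕ)

/-- the polynomial `∑ j, a j X ^ j` -/
def coordPoly (a : Fin e → E₀) : E₀[X] := ∑ j : Fin e, C (a j) * X ^ (j : ℕ)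

theorem aeval_coordPoly (a : Fin e → E₀) : aeval h (coordPoly a) = sumPow h a := by
  rw [coordPoly, map_sum, sumPow]
  refine Finset.sum_congr rfl fun j _ => ?_
  rw [map_mul, aeval_C, map_pow, aeval_X]

theorem degree_coordPoly_lt (a : Fin e → E₀) : (coordPoly a).degree < e := by
  rw [coordPoly]
  exact degree_sum_fin_lt a

theorem coeff_coordPoly (a : Fin e → E₀) (j : Fin e) : (coordPoly a).coeff j = a j := by
  rw [coordPoly, finsetSum_coeff]
  rw [Finset.sum_eq_single j]
  · rw [coeff_C_mul, coeff_X_pow, if_pos rfl, mul_one]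
  · intro i _ hij
    rw [coeff_C_mul, coeff_X_pow, if_neg, mul_zero]
    intro h
    exact hij (Fin.ext h.symm)
  · intro hj
    exact absurd (Finset.mem_univ j) hj

theorem sumPow_eq_zero (H : IsKummerGen e u h) {a : Fin e → E₀} (ha : sumPow h a = 0) : a = 0 := by
  rw [← aeval_coordPoly] at ha
  have h0 : coordPoly a = 0 := by
    by_contra hne
    exact H.aeval_ne_zero hne (degree_coordPoly_lt a) ha
  funext j
  rw [← coeff_coordPoly a j, h0, coeff_zero, Pi.zero_apply]

theorem sumPow_add (a b : Fin e → E₀) : sumPow h (a + b) = sumPow h a + sumPow h b := by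
  simp only [sumPow, Pi.add_apply, map_add, add_mul, Finset.sum_add_distrib]

theorem sumPow_smul (c : E₀) (a : Fin e → E₀) : sumPow h (c • a) = c • sumPow h a := by
  simp only [sumPow, Pi.smul_apply, smul_eq_mul, map_mul, Algebra.smul_def, Finset.mul_sum,
    mul_assoc]

/-- `a ↦ ∑ a_j h^j` as a linear map -/
def sumPowLin (h : E) : (Fin e → E₀) →ₗ[E₀] E where
  toFun := sumPow h
  map_add' := sumPow_add
  map_smul' := sumPow_smul

theorem sumPowLin_apply (a : Fin e → E₀) : sumPowLin h a = sumPow h a := rfl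

theorem sumPow_injective (H : IsKummerGen e u h) :
    Function.Injective (sumPow h : (Fin e → E₀) → E) := by
  intro a b hab
  have : sumPow h (a - b) = 0 := by
    have := (sumPowLin h).map_sub a b
    rw [sumPowLin_apply, sumPowLin_apply, sumPowLin_apply, hab, sub_self] at this
    exact this
  exact sub_eq_zero.1 (H.sumPow_eq_zero this)

theorem sumPow_surjective (H : IsKummerGen e u h) :
    Function.Surjective (sumPow h : (Fin e → E₀) → E) := by
  intro f
  obtain ⟨p, hpdeg, hpf⟩ := H.gen_lt f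
  refine ⟨fun j => p.coeff j, ?_⟩
  rw [← hpf, sumPow, aeval_eq_sum_range' (n := e)]
  · rw [Finset.sum_range]
    refine Finset.sum_congr rfl fun j _ => ?_
    rw [Algebra.smul_def]
  · rcases eq_or_ne p 0 with rfl | hp0
    · rw [natDegree_zero]
      exact H.pos
    · exact (natDegree_lt_iff_degree_lt hp0).2 hpdeg

/-- the coordinates `(Fin e → E₀) ≃ E` -/
def coordEquiv (H : IsKummerGen e u h) : (Fin e → E₀) ≃ₗ[E₀] E :=
  LinearEquiv.ofBijective (sumPowLin h) ⟨H.sumPow_injective, H.sumPow_surjective⟩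

theorem coordEquiv_apply (H : IsKummerGen e u h) (a : Fin e → E₀) :
    H.coordEquiv a = sumPow h a := rfl

/-- the coordinates of an element -/
def coord (H : IsKummerGen e u h) (f : E) : Fin e → E₀ := H.coordEquiv.symm f

theorem sumPow_coord (H : IsKummerGen e u h) (f : E) : sumPow h (H.coord f) = f :=
  H.coordEquiv.apply_symm_apply f

theorem coord_sumPow (H : IsKummerGen e u h) (a : Fin e → E₀) : H.coord (sumPow h a) = a :=
  H.coordEquiv.symm_apply_apply a

/-- the basis `1, h, …, h^(e-1)` -/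
def basis (H : IsKummerGen e u h) : Module.Basis (Fin e) E₀ E :=
  Module.Basis.ofEquivFun H.coordEquiv.symm

theorem basis_apply (H : IsKummerGen e u h) (j : Fin e) : H.basis j = h ^ (j : ℕ) := by
  classical
  rw [basis, Module.Basis.coe_ofEquivFun, LinearEquiv.symm_symm]
  show H.coordEquiv (Pi.single j 1) = _
  rw [coordEquiv_apply, sumPow]
  rw [Finset.sum_eq_single j]
  · rw [Pi.single_eq_same, map_one, one_mul]
  · intro i _ hij
    rw [Pi.single_eq_of_ne hij, map_zero, zero_mul]
  · intro hj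
    exact absurd (Finset.mem_univ j) hj

theorem finrank_eq (H : IsKummerGen e u h) : Module.finrank E₀ E = e := by
  rw [Module.finrank_eq_card_basis H.basis, Fintype.card_fin]

theorem finiteDimensional (H : IsKummerGen e u h) : FiniteDimensional E₀ E :=
  Module.Finite.of_basis H.basis

theorem isIntegral_gen (H : IsKummerGen e u h) : IsIntegral E₀ h :=
  ⟨X ^ e - C u, H.monic, by rw [← aeval_def, H.aeval_self]⟩

theorem minpoly_eq (H : IsKummerGen e u h) : minpoly E₀ h = X ^ e - C u := by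
  symm
  refine minpoly.unique' E₀ h H.monic H.aeval_self fun q hq => ?_
  by_cases hq0 : q = 0
  · exact Or.inl hq0
  · right
    rw [degree_eq_natDegree H.monic.ne_zero, H.natDegree_eq] at hq
    exact H.aeval_ne_zero hq0 hq

theorem separable_gen (H : IsKummerGen e u h) (he : (e : E₀) ≠ 0) (hu : u ≠ 0) :
    IsSeparable E₀ h := by
  rw [IsSeparable, H.minpoly_eq]
  exact separable_X_pow_sub_C u he hu

theorem isSeparable (H : IsKummerGen e u h) (he : (e : E₀) ≠ 0) (hu : u ≠ 0) :
    Algebra.IsSeparable E₀ E := by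
  have htop : IntermediateField.adjoin E₀ {h} = ⊤ := by
    rw [eq_top_iff]
    intro f _
    obtain ⟨p, rfl⟩ := H.gen f
    rw [aeval_def, eval₂_eq_sum_range]
    refine Subalgebra.sum_mem _ fun i _ => ?_
    exact mul_mem (IntermediateField.algebraMap_mem _ _)
      (pow_mem (IntermediateField.mem_adjoin_simple_self E₀ h) i)
  have h1 : Algebra.IsSeparable E₀ (IntermediateField.adjoin E₀ {h}) :=
    (IntermediateField.isSeparable_adjoin_iff_isSeparable E₀ E).2 (by
      intro x hx
      rw [Set.mem_singleton_iff] at hx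
      rw [hx]
      exact H.separable_gen he hu)
  rw [htop] at h1
  exact (IntermediateField.isSeparable_top E₀ E).1 h1

/-! ### the deck transformation in coordinates -/

theorem deck_sumPow (H : IsKummerGen e u h) (ζ : E₀) (hζ : ζ ^ e = 1) (a : Fin e → E₀) :
    H.deck ζ hζ (sumPow h a) = sumPow h (fun j => ζ ^ (j : ℕ) * a j) := by
  rw [sumPow, map_sum, sumPow]
  refine Finset.sum_congr rfl fun j _ => ?_
  rw [map_mul, AlgEquiv.commutes, map_pow, deck_gen, mul_pow, ← map_pow, map_mul]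
  ring

/-- iterating the deck transformation -/
theorem deck_pow_sumPow (H : IsKummerGen e u h) (ζ : E₀) (hζ : ζ ^ e = 1) (i : ℕ)
    (a : Fin e → E₀) :
    (H.deck ζ hζ)^[i] (sumPow h a) = sumPow h (fun j => ζ ^ (i * (j : ℕ)) * a j) := by
  induction i with
  | zero => simp
  | succ n ih =>
    rw [Function.iterate_succ_apply', ih, deck_sumPow]
    congr 1
    funext j
    rw [← mul_assoc, ← pow_add]
    congr 2
    ring

/-- **the trace**: for a primitive `e`-th root of unity `ζ`,
`∑_{i < e} δ^i (∑ a_j h^j) = e • a₀`. -/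
theorem sum_deck_pow (H : IsKummerGen e u h) {ζ : E₀} (hζ : IsPrimitiveRoot ζ e)
    (a : Fin e → E₀) :
    ∑ i ∈ Finset.range e, (H.deck ζ hζ.pow_eq_one)^[i] (sumPow h a) =
      algebraMap E₀ E ((e : E₀) * a ⟨0, H.pos⟩) := by
  simp_rw [deck_pow_sumPow, sumPow]
  rw [Finset.sum_comm]
  rw [Finset.sum_eq_single (⟨0, H.pos⟩ : Fin e)]
  · simp only [mul_zero, pow_zero, one_mul, mul_one]
    rw [Finset.sum_const, Finset.card_range, nsmul_eq_mul, ← map_natCast (algebraMap E₀ E), ← map_mul]
  · intro j _ hj0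
    have hj : (j : ℕ) ≠ 0 := fun h0 => hj0 (Fin.ext h0)
    -- `∑_i ζ^(i j) = 0`
    have hsum : ∑ i ∈ Finset.range e, ζ ^ (i * (j : ℕ)) = 0 := by
      have hζj : ζ ^ (j : ℕ) ≠ 1 := by
        intro h1
        have := hζ.dvd_of_pow_eq_one _ h1
        exact absurd (Nat.le_of_dvd (Nat.pos_of_ne_zero hj) this) (not_le.2 j.2)
      have hgeom : (∑ i ∈ Finset.range e, (ζ ^ (j : ℕ)) ^ i) * (ζ ^ (j : ℕ) - 1) =
          (ζ ^ (j : ℕ)) ^ e - 1 := geom_sum_mul _ _
      have h0 : (ζ ^ (j : ℕ)) ^ e - 1 = 0 := by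
        rw [← pow_mul, mul_comm, pow_mul, hζ.pow_eq_one, one_pow, sub_self]
      rw [h0] at hgeom
      have := (mul_eq_zero.1 hgeom).resolve_right (sub_ne_zero.2 hζj)
      rw [← this]
      refine Finset.sum_congr rfl fun i _ => ?_
      rw [← pow_mul, mul_comm]
    rw [← Finset.sum_mul]
    simp_rw [map_mul]
    rw [← Finset.sum_mul, ← map_sum, hsum, map_zero, zero_mul, zero_mul]
  · intro h0
    exact absurd (Finset.mem_univ _) h0


/-- geometric sums of a root of unity -/
theorem sum_pow_eq_zero_of_ne_one {R : Type*} [Field R] {ξ : R} {e : ℕ} (hξe : ξ ^ e = 1)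
    (hξ : ξ ≠ 1) : ∑ i ∈ Finset.range e, ξ ^ i = 0 := by
  have hgeom : (∑ i ∈ Finset.range e, ξ ^ i) * (ξ - 1) = ξ ^ e - 1 := geom_sum_mul _ _
  rw [hξe, sub_self] at hgeom
  exact (mul_eq_zero.1 hgeom).resolve_right (sub_ne_zero.2 hξ)

/-- **the twisted traces**: for a primitive `e`-th root of unity `ζ` and `j < e`,
`∑_{i < e} ζ^((e-j) i) δ^i (∑ a_l h^l) = e a_j h^j`. -/
theorem sum_twisted_deck_pow (H : IsKummerGen e u h) {ζ : E₀} (hζ : IsPrimitiveRoot ζ e)
    (a : Fin e → E₀) (j : Fin e) :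
    ∑ i ∈ Finset.range e, algebraMap E₀ E ((ζ ^ (e - (j : ℕ))) ^ i) *
        (H.deck ζ hζ.pow_eq_one)^[i] (sumPow h a) =
      algebraMap E₀ E ((e : E₀) * a j) * h ^ (j : ℕ) := by
  simp_rw [deck_pow_sumPow, sumPow, Finset.mul_sum]
  rw [Finset.sum_comm]
  rw [Finset.sum_eq_single j]
  · -- the diagonal term
    have hone : ∀ i : ℕ, (ζ ^ (e - (j : ℕ))) ^ i * ζ ^ (i * (j : ℕ)) = 1 := by
      intro i
      rw [← pow_mul, ← pow_add]
      have : (e - (j : ℕ)) * i + i * (j : ℕ) = e * i := by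
        have hj : (j : ℕ) ≤ e := j.2.le
        zify [hj]
        ring
      rw [this, pow_mul, hζ.pow_eq_one, one_pow]
    have : ∀ i ∈ Finset.range e, algebraMap E₀ E ((ζ ^ (e - (j : ℕ))) ^ i) *
        (algebraMap E₀ E (ζ ^ (i * (j : ℕ)) * a j) * h ^ (j : ℕ)) =
        algebraMap E₀ E (a j) * h ^ (j : ℕ) := by
      intro i _
      rw [← mul_assoc, ← map_mul, ← mul_assoc, hone, one_mul]
    rw [Finset.sum_congr rfl this, Finset.sum_const, Finset.card_range, nsmul_eq_mul,
      ← map_natCast (algebraMap E₀ E), ← mul_assoc, ← map_mul]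
  · intro l _ hlj
    have hξ : ζ ^ (e - (j : ℕ) + (l : ℕ)) ≠ 1 := by
      intro h1
      have hdvd := hζ.dvd_of_pow_eq_one _ h1
      have hj : (j : ℕ) < e := j.2
      have hl : (l : ℕ) < e := l.2
      have hne : (l : ℕ) ≠ (j : ℕ) := fun h0 => hlj (Fin.ext h0)
      obtain ⟨c, hc⟩ := hdvd
      have hc1 : c = 1 := by
        have h2 : e - (j : ℕ) + (l : ℕ) < 2 * e := by omega
        have h3 : 0 < e - (j : ℕ) + (l : ℕ) := by omega
        rcases c with _ | _ | c
        · omega
        · rfl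
        · nlinarith
      rw [hc1, mul_one] at hc
      omega
    have hξe : (ζ ^ (e - (j : ℕ) + (l : ℕ))) ^ e = 1 := by
      rw [← pow_mul, mul_comm, pow_mul, hζ.pow_eq_one, one_pow]
    have hsum := sum_pow_eq_zero_of_ne_one hξe hξ
    have : ∀ i ∈ Finset.range e, algebraMap E₀ E ((ζ ^ (e - (j : ℕ))) ^ i) *
        (algebraMap E₀ E (ζ ^ (i * (l : ℕ)) * a l) * h ^ (l : ℕ)) =
        algebraMap E₀ E ((ζ ^ (e - (j : ℕ) + (l : ℕ))) ^ i) * (algebraMap E₀ E (a l) * h ^ (l : ℕ)) := by
      intro i _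
      rw [← mul_assoc, ← map_mul, ← mul_assoc, ← mul_assoc, ← map_mul]
      congr 3
      rw [← pow_mul, ← pow_mul, ← pow_add]
      congr 1
      ring
    rw [Finset.sum_congr rfl this, ← Finset.sum_mul, ← map_sum, hsum, map_zero, zero_mul]
  · intro h0
    exact absurd (Finset.mem_univ _) h0

end IsKummerGen

end Fermat.Agent.S43lib.LGC.KC
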