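/-
S43lib / LGC / KC / Gauss  (helper2)

**KC1: the Gauss datum of a Kummer-type extension.**

`D₀ : GaussDatum A F₀ K₀` a Gauss datum on `F₀ / L`; `F = F₀[h]` with minimal polynomial
`X ^ e - u`, `u` a unit of `D₀.O`; `K = K₀[ȳ]` with minimal polynomial `X ^ e - ū`, `ū = red u`
(so `X ^ e - ū` is irreducible over `K₀`: the valuation is INERT in `F / F₀`).  Then

  `O = D₀.O[h]`  (the elements `p(h)`, `p ∈ D₀.O[X]`)

is a valuation ring of `F`, with reduction `p(h) ↦ p̄(ȳ)` onto `K`, and `(O, red)` is a Gauss datum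
`gaussExt : GaussDatum A F K` extending `D₀`.  It is the ONLY valuation ring of `F` above `D₀.O`.

Everything is elementary: the "Gauss norm" with respect to the basis `1, h, …, h^(e-1)` is
multiplicative because `K` is a field.
-/
import Mathlib
import Fermat.Agent.S18lib.Weak.Lemmas

set_option autoImplicit false
set_option linter.unusedSectionVars false
set_option linter.unusedVariables false

noncomputable section

namespace Fermat.Agent.S43lib.LGC.KC

open Polynomial Fermat.Agent.S18lib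

/-- `E = E₀[h]` with minimal polynomial `X ^ e - u` over `E₀`. -/
structure IsKummerGen {E₀ E : Type*} [Field E₀] [Field E] [Algebra E₀ E] (e : ℕ) (u : E₀)
    (h : E) : Prop where
  pos : 0 < e
  pow_eq : h ^ e = algebraMap E₀ E u
  gen : ∀ f : E, ∃ p : E₀[X], aeval h p = f
  dvd_of_aeval_eq_zero : ∀ p : E₀[X], aeval h p = 0 → (X ^ e - C u) ∣ p

namespace IsKummerGen

variable {E₀ E : Type*} [Field E₀] [Field E] [Algebra E₀ E] {e : ℕ} {u : E₀} {h : E}

theorem monic (H : IsKummerGen e u h) : (X ^ e - C u : E₀[X]).Monic :=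
  monic_X_pow_sub_C u H.pos.ne'

theorem natDegree_eq (H : IsKummerGen e u h) : (X ^ e - C u : E₀[X]).natDegree = e :=
  natDegree_X_pow_sub_C

theorem aeval_self (H : IsKummerGen e u h) : aeval h (X ^ e - C u : E₀[X]) = 0 := by
  rw [map_sub, map_pow, aeval_X, aeval_C, H.pow_eq, sub_self]

/-- representatives of degree `< e` -/
theorem gen_lt (H : IsKummerGen e u h) (f : E) :
    ∃ p : E₀[X], p.degree < e ∧ aeval h p = f := by
  obtain ⟨p, hp⟩ := H.gen f
  refine ⟨p %ₘ (X ^ e - C u), ?_, ?_⟩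
  · have := degree_modByMonic_lt p H.monic
    rwa [degree_eq_natDegree H.monic.ne_zero, H.natDegree_eq] at this
  · have h1 := modByMonic_add_div p (X ^ e - C u : E₀[X])
    have h2 := congrArg (aeval h) h1
    rw [map_add, map_mul, H.aeval_self, zero_mul, add_zero] at h2
    rw [h2, hp]

/-- a nonzero polynomial of degree `< e` does not vanish at `h` -/
theorem aeval_ne_zero (H : IsKummerGen e u h) {p : E₀[X]} (hp : p ≠ 0) (hdeg : p.degree < e) :
    aeval h p ≠ 0 := by
  intro h0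
  have hd := H.dvd_of_aeval_eq_zero p h0
  have h1 := degree_le_of_dvd hd hp
  rw [degree_eq_natDegree H.monic.ne_zero, H.natDegree_eq] at h1
  exact absurd (lt_of_le_of_lt h1 hdeg) (lt_irrefl _)

theorem gen_ne_zero (H : IsKummerGen e u h) (hu : u ≠ 0) : h ≠ 0 := by
  rintro rfl
  have := H.pow_eq
  rw [zero_pow H.pos.ne'] at this
  exact hu ((map_eq_zero (algebraMap E₀ E)).1 this.symm)

end IsKummerGen

variable {L : Type*} [Field L] {A : ValuationSubring L}
variable {F₀ : Type*} [Field F₀] [Algebra L F₀]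
variable {K₀ : Type*} [Field K₀] [Algebra (IsLocalRing.ResidueField A) K₀]
variable {F : Type*} [Field F] [Algebra L F] [Algebra F₀ F] [IsScalarTower L F₀ F]
variable {K : Type*} [Field K] [Algebra (IsLocalRing.ResidueField A) K] [Algebra K₀ K]
variable [IsScalarTower (IsLocalRing.ResidueField A) K₀ K]

local notation "k" => IsLocalRing.ResidueField A

/-! ### normalisation of polynomials over a Gauss datum -/

/-- **Gauss normalisation**: a nonzero polynomial over `F₀` is a constant of `L` times a polynomial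
over `D₀.O` with nonzero reduction. -/
theorem exists_normalised (D₀ : GaussDatum A F₀ K₀) {r : F₀[X]} (hr : r ≠ 0) :
    ∃ c : L, c ≠ 0 ∧ ∃ r₁ : (D₀.O)[X],
      r₁.map D₀.O.subtype = C (algebraMap L F₀ c) * r ∧ r₁.map D₀.red ≠ 0 := by
  classical
  set v := D₀.O.valuation with hv
  have hsupp : r.support.Nonempty := by
    rwa [Finset.nonempty_iff_ne_empty, ne_eq, support_eq_empty]
  obtain ⟨i₀, hi₀, hmax⟩ := Finset.exists_max_image r.support (fun i => v (r.coeff i)) hsupp
  have ha : r.coeff i₀ ≠ 0 := mem_support_iff.1 hi₀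
  obtain ⟨c, hc, w, hw⟩ := D₀.exists_const_mul_isUnit (r.coeff i₀) ha
  have hcF : algebraMap L F₀ c ≠ 0 := (_root_.map_ne_zero _).2 hc
  have hvw : v (algebraMap L F₀ c * r.coeff i₀) = 1 := by
    rw [hw]
    exact D₀.O.valuation_unit w
  have hmem : ∀ n : ℕ, algebraMap L F₀ c * r.coeff n ∈ D₀.O := by
    intro n
    by_cases hn : n ∈ r.support
    · rw [← ValuationSubring.valuation_le_one_iff, map_mul]
      calc v (algebraMap L F₀ c) * v (r.coeff n)
          ≤ v (algebraMap L F₀ c) * v (r.coeff i₀) := by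
            exact mul_le_mul_right (hmax n hn) _
        _ = 1 := by rw [← map_mul, hvw]
    · rw [notMem_support_iff.1 hn, mul_zero]
      exact D₀.O.zero_mem
  have hlift : (C (algebraMap L F₀ c) * r) ∈ lifts D₀.O.subtype := by
    rw [lifts_iff_coeff_lifts]
    intro n
    rw [coeff_C_mul]
    exact ⟨⟨_, hmem n⟩, rfl⟩
  obtain ⟨r₁, hr₁⟩ := (mem_lifts _).1 hlift
  refine ⟨c, hc, r₁, hr₁, fun h0 => ?_⟩
  have h1 : (r₁.map D₀.red).coeff i₀ = 0 := by rw [h0, coeff_zero]
  rw [coeff_map] at h1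
  have h2 : ((r₁.coeff i₀ : D₀.O) : F₀) = ((w : D₀.O) : F₀) := by
    have := congrArg (fun p => p.coeff i₀) hr₁
    simp only [coeff_map, coeff_C_mul] at this
    rw [← hw]
    exact this
  have h3 : r₁.coeff i₀ = (w : D₀.O) := Subtype.ext h2
  rw [h3] at h1
  exact D₀.red_unit_ne_zero w h1

/-! ### the extension -/

/-- the hypotheses of KC1 -/
structure KummerLift (D₀ : GaussDatum A F₀ K₀) (e : ℕ) (u : F₀) (h : F) (ybar : K) : Prop where
  gen : IsKummerGen e u h
  u_mem : u ∈ D₀.O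
  genbar : IsKummerGen e (D₀.redF u) ybar

variable (D₀ : GaussDatum A F₀ K₀) (h : F) (ybar : K)

/-- evaluation at `h` of polynomials over `D₀.O` -/
def psi : (D₀.O)[X] →+* F :=
  ((aeval h : F₀[X] →ₐ[F₀] F) : F₀[X] →+* F).comp (mapRingHom D₀.O.subtype)

/-- evaluation at `ȳ` of the reduced polynomial -/
def phi : (D₀.O)[X] →+* K :=
  ((aeval ybar : K₀[X] →ₐ[K₀] K) : K₀[X] →+* K).comp (mapRingHom D₀.red)

theorem psi_apply (p : (D₀.O)[X]) : psi D₀ h p = aeval h (p.map D₀.O.subtype) := rfl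

theorem phi_apply (p : (D₀.O)[X]) : phi D₀ ybar p = aeval ybar (p.map D₀.red) := rfl

variable {D₀ h ybar} {e : ℕ} {u : F₀}

/-- the Kummer polynomial over `D₀.O` -/
def kpoly (H : KummerLift D₀ e u h ybar) : (D₀.O)[X] := X ^ e - C ⟨u, H.u_mem⟩

theorem kpoly_monic (H : KummerLift D₀ e u h ybar) : (kpoly H).Monic :=
  monic_X_pow_sub_C _ H.gen.pos.ne'

theorem kpoly_map_subtype (H : KummerLift D₀ e u h ybar) :
    (kpoly H).map D₀.O.subtype = X ^ e - C u := by
  simp [kpoly]

theorem kpoly_map_red (H : KummerLift D₀ e u h ybar) :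
    (kpoly H).map D₀.red = X ^ e - C (D₀.redF u) := by
  simp [kpoly, D₀.redF_of_mem H.u_mem]

theorem psi_kpoly (H : KummerLift D₀ e u h ybar) : psi D₀ h (kpoly H) = 0 := by
  rw [psi_apply, kpoly_map_subtype, H.gen.aeval_self]

theorem phi_kpoly (H : KummerLift D₀ e u h ybar) : phi D₀ ybar (kpoly H) = 0 := by
  rw [phi_apply, kpoly_map_red, H.genbar.aeval_self]

/-- the kernel of `psi` is generated by the Kummer polynomial -/
theorem kpoly_dvd_of_psi_eq_zero (H : KummerLift D₀ e u h ybar) {p : (D₀.O)[X]}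
    (hp : psi D₀ h p = 0) : kpoly H ∣ p := by
  rw [psi_apply] at hp
  have hd := H.gen.dvd_of_aeval_eq_zero _ hp
  rw [← kpoly_map_subtype H] at hd
  -- `p %ₘ kpoly` maps to `0`
  have h1 : (p %ₘ kpoly H).map D₀.O.subtype = 0 := by
    rw [map_modByMonic _ (kpoly_monic H)]
    exact (modByMonic_eq_zero_iff_dvd ((kpoly_monic H).map _)).2 hd
  have hinj : Function.Injective D₀.O.subtype := Subtype.val_injective
  have h2 : p %ₘ kpoly H = 0 := by
    apply map_injective _ hinj
    rw [h1, Polynomial.map_zero]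
  exact (modByMonic_eq_zero_iff_dvd (kpoly_monic H)).1 h2

theorem phi_eq_zero_of_psi_eq_zero (H : KummerLift D₀ e u h ybar) {p : (D₀.O)[X]}
    (hp : psi D₀ h p = 0) : phi D₀ ybar p = 0 := by
  obtain ⟨q, rfl⟩ := kpoly_dvd_of_psi_eq_zero H hp
  rw [map_mul, phi_kpoly H, zero_mul]

/-- every element of the range of `psi` has a representative of degree `< e` -/
theorem exists_rep_lt (H : KummerLift D₀ e u h ybar) (p : (D₀.O)[X]) :
    ∃ r : (D₀.O)[X], r.degree < e ∧ psi D₀ h r = psi D₀ h p ∧ phi D₀ ybar r = phi D₀ ybar p := by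
  refine ⟨p %ₘ kpoly H, ?_, ?_, ?_⟩
  · have := degree_modByMonic_lt p (kpoly_monic H)
    have hd : (kpoly H).degree = e := by
      rw [kpoly, degree_X_pow_sub_C H.gen.pos]
    rwa [hd] at this
  · have h1 := modByMonic_add_div p (kpoly H)
    have h2 := congrArg (psi D₀ h) h1
    rw [map_add, map_mul, psi_kpoly H, zero_mul, add_zero] at h2
    exact h2
  · have h1 := modByMonic_add_div p (kpoly H)
    have h2 := congrArg (phi D₀ ybar) h1
    rw [map_add, map_mul, phi_kpoly H, zero_mul, add_zero] at h2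
    exact h2

/-- **the key normalisation**: every nonzero `f ∈ F` is a constant times an element `psi r₁` with
`phi r₁ ≠ 0`. -/
theorem exists_const_mul_eq_psi (H : KummerLift D₀ e u h ybar) {f : F} (hf : f ≠ 0) :
    ∃ c : L, c ≠ 0 ∧ ∃ r₁ : (D₀.O)[X],
      psi D₀ h r₁ = algebraMap L F c * f ∧ phi D₀ ybar r₁ ≠ 0 := by
  obtain ⟨r, hrdeg, hrf⟩ := H.gen.gen_lt f
  have hr0 : r ≠ 0 := by
    rintro rfl
    rw [map_zero] at hrf
    exact hf hrf.symm
  obtain ⟨c, hc, r₁, hr₁, hred⟩ := exists_normalised D₀ hr0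
  refine ⟨c, hc, r₁, ?_, ?_⟩
  · rw [psi_apply, hr₁, map_mul, aeval_C, hrf, ← IsScalarTower.algebraMap_apply]
  · rw [phi_apply]
    refine H.genbar.aeval_ne_zero hred ?_
    have hcF : algebraMap L F₀ c ≠ 0 := (_root_.map_ne_zero _).2 hc
    calc (r₁.map D₀.red).degree ≤ r₁.degree := degree_map_le
      _ = (r₁.map D₀.O.subtype).degree :=
          (degree_map_eq_of_injective Subtype.val_injective r₁).symm
      _ = r.degree := by rw [hr₁, degree_C_mul hcF]
      _ < e := hrdeg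

/-- constants in the range of `psi` lie in `A` -/
theorem mem_of_algebraMap_eq_psi (H : KummerLift D₀ e u h ybar) {c : L} {p : (D₀.O)[X]}
    (hp : psi D₀ h p = algebraMap L F c) : c ∈ A := by
  obtain ⟨r, hrdeg, hr, -⟩ := exists_rep_lt H p
  rw [hp, psi_apply] at hr
  -- `r.map - C c` has degree `< e` and vanishes at `h`
  set q : F₀[X] := r.map D₀.O.subtype - C (algebraMap L F₀ c) with hq
  have hq0 : aeval h q = 0 := by
    rw [hq, map_sub, hr, aeval_C, ← IsScalarTower.algebraMap_apply, sub_self]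
  have hqdeg : q.degree < e := by
    refine lt_of_le_of_lt (degree_sub_le _ _) (max_lt ?_ ?_)
    · exact lt_of_le_of_lt degree_map_le hrdeg
    · refine lt_of_le_of_lt degree_C_le ?_
      exact_mod_cast H.gen.pos
  have hq00 : q = 0 := by
    by_contra hne
    exact H.gen.aeval_ne_zero hne hqdeg hq0
  have h1 : algebraMap L F₀ c = ((r.coeff 0 : D₀.O) : F₀) := by
    have := congrArg (fun p => p.coeff 0) (sub_eq_zero.1 hq00)
    simp only [coeff_map, coeff_C_zero] at this
    exact this.symm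
  rw [← D₀.algebraMap_mem_iff, h1]
  exact (r.coeff 0).2

/-- the subring `D₀.O[h]` -/
def ringB (D₀ : GaussDatum A F₀ K₀) (h : F) : Subring F := (psi D₀ h).range

theorem mem_ringB {x : F} : x ∈ ringB D₀ h ↔ ∃ p : (D₀.O)[X], psi D₀ h p = x := by
  rw [ringB, RingHom.mem_range]

/-- multiplicativity of the norm: if `psi p * psi p' = c` with `phi p`, `phi p'` nonzero then
`c` is a unit of `A`. -/
theorem isUnit_of_psi_mul_psi (H : KummerLift D₀ e u h ybar) {c : L} {p p' : (D₀.O)[X]}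
    (hpp : psi D₀ h p * psi D₀ h p' = algebraMap L F c) (hp : phi D₀ ybar p ≠ 0)
    (hp' : phi D₀ ybar p' ≠ 0) : ∃ hc : c ∈ A, IsUnit (⟨c, hc⟩ : A) := by
  have hmul : psi D₀ h (p * p') = algebraMap L F c := by rw [map_mul, hpp]
  have hcA : c ∈ A := mem_of_algebraMap_eq_psi H hmul
  refine ⟨hcA, ?_⟩
  -- compare with the constant polynomial
  have hconst : psi D₀ h (C ⟨algebraMap L F₀ c, (D₀.algebraMap_mem_iff c).2 hcA⟩) =
      algebraMap L F c := by
    rw [psi_apply, Polynomial.map_C, aeval_C]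
    exact (IsScalarTower.algebraMap_apply L F₀ F c).symm
  have hker : psi D₀ h (p * p' - C ⟨algebraMap L F₀ c, (D₀.algebraMap_mem_iff c).2 hcA⟩) = 0 := by
    rw [map_sub, hmul, hconst, sub_self]
  have h1 := phi_eq_zero_of_psi_eq_zero H hker
  rw [map_sub, map_mul, sub_eq_zero] at h1
  have h2 : phi D₀ ybar (C ⟨algebraMap L F₀ c, (D₀.algebraMap_mem_iff c).2 hcA⟩) =
      algebraMap k K (IsLocalRing.residue A ⟨c, hcA⟩) := by
    rw [phi_apply, Polynomial.map_C, aeval_C,
      D₀.red_algebraMap ⟨c, hcA⟩ ((D₀.algebraMap_mem_iff c).2 hcA),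
      ← IsScalarTower.algebraMap_apply]
  rw [h2] at h1
  have h3 : algebraMap k K (IsLocalRing.residue A ⟨c, hcA⟩) ≠ 0 := by
    rw [← h1]
    exact mul_ne_zero hp hp'
  have h4 : IsLocalRing.residue A ⟨c, hcA⟩ ≠ 0 := fun h0 => h3 (by rw [h0, map_zero])
  by_contra hnu
  exact h4 ((IsLocalRing.residue_eq_zero_iff _).2 ((IsLocalRing.mem_maximalIdeal _).2 hnu))

/-- elements of `D₀.O[h]` with nonzero reduction are units of `D₀.O[h]` -/
theorem inv_mem_ringB (H : KummerLift D₀ e u h ybar) {p : (D₀.O)[X]}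
    (hp : phi D₀ ybar p ≠ 0) : (psi D₀ h p)⁻¹ ∈ ringB D₀ h := by
  have hp0 : psi D₀ h p ≠ 0 := fun h0 => hp (phi_eq_zero_of_psi_eq_zero H h0)
  obtain ⟨c', hc', p', hp', hred'⟩ := exists_const_mul_eq_psi H (inv_ne_zero hp0)
  have hpp : psi D₀ h p * psi D₀ h p' = algebraMap L F c' := by
    rw [hp', mul_comm (algebraMap L F c'), ← mul_assoc, mul_inv_cancel₀ hp0, one_mul]
  obtain ⟨hcA, hcu⟩ := isUnit_of_psi_mul_psi H hpp hp hred'
  obtain ⟨⟨d, hd⟩, hdc⟩ := isUnit_iff_exists_inv.1 hcu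
  have hdc' : c' * d = 1 := congrArg Subtype.val hdc
  -- `(psi p)⁻¹ = d * psi p'`
  refine mem_ringB.2 ⟨C ⟨algebraMap L F₀ d, (D₀.algebraMap_mem_iff d).2 hd⟩ * p', ?_⟩
  rw [map_mul, hp', psi_apply, Polynomial.map_C, aeval_C]
  have h1 : algebraMap F₀ F (D₀.O.subtype ⟨algebraMap L F₀ d, (D₀.algebraMap_mem_iff d).2 hd⟩) =
      algebraMap L F d := (IsScalarTower.algebraMap_apply L F₀ F d).symm
  rw [h1, ← mul_assoc, ← map_mul, mul_comm d c', hdc', map_one, one_mul]

/-- `D₀.O[h]` is a valuation ring of `F` -/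
theorem mem_or_inv_mem_ringB (H : KummerLift D₀ e u h ybar) (f : F) :
    f ∈ ringB D₀ h ∨ f⁻¹ ∈ ringB D₀ h := by
  rcases eq_or_ne f 0 with rfl | hf
  · exact Or.inl (Subring.zero_mem _)
  obtain ⟨c, hc, p, hp, hred⟩ := exists_const_mul_eq_psi H hf
  have hcF : algebraMap L F c ≠ 0 := (_root_.map_ne_zero _).2 hc
  rcases A.mem_or_inv_mem c with hcA | hcA
  · -- `f⁻¹ = c * (psi p)⁻¹`
    right
    have h1 : f⁻¹ = algebraMap L F c * (psi D₀ h p)⁻¹ := by
      rw [hp, mul_inv, ← mul_assoc, mul_inv_cancel₀ hcF, one_mul]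
    rw [h1]
    refine Subring.mul_mem _ (mem_ringB.2 ⟨C ⟨algebraMap L F₀ c, (D₀.algebraMap_mem_iff c).2 hcA⟩, ?_⟩)
      (inv_mem_ringB H hred)
    rw [psi_apply, Polynomial.map_C, aeval_C]
    exact (IsScalarTower.algebraMap_apply L F₀ F c).symm
  · -- `f = c⁻¹ * psi p`
    left
    have h1 : f = algebraMap L F c⁻¹ * psi D₀ h p := by
      rw [hp, ← mul_assoc, ← map_mul, inv_mul_cancel₀ hc, map_one, one_mul]
    rw [h1]
    refine Subring.mul_mem _
      (mem_ringB.2 ⟨C ⟨algebraMap L F₀ c⁻¹, (D₀.algebraMap_mem_iff c⁻¹).2 hcA⟩, ?_⟩)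
      (mem_ringB.2 ⟨p, rfl⟩)
    rw [psi_apply, Polynomial.map_C, aeval_C]
    exact (IsScalarTower.algebraMap_apply L F₀ F c⁻¹).symm

/-- the valuation ring `D₀.O[h]` -/
def extO (H : KummerLift D₀ e u h ybar) : ValuationSubring F :=
  { ringB D₀ h with mem_or_inv_mem' := mem_or_inv_mem_ringB H }

theorem mem_extO (H : KummerLift D₀ e u h ybar) {x : F} :
    x ∈ extO H ↔ ∃ p : (D₀.O)[X], psi D₀ h p = x := mem_ringB

/-- `psi` with values in `extO` -/
def psiO (H : KummerLift D₀ e u h ybar) : (D₀.O)[X] →+* extO H :=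
  (psi D₀ h).codRestrict (extO H) (fun p => (mem_extO H).2 ⟨p, rfl⟩)

theorem psiO_surjective (H : KummerLift D₀ e u h ybar) : Function.Surjective (psiO H) := by
  rintro ⟨x, hx⟩
  obtain ⟨p, hp⟩ := (mem_extO H).1 hx
  exact ⟨p, Subtype.ext hp⟩

theorem coe_psiO (H : KummerLift D₀ e u h ybar) (p : (D₀.O)[X]) :
    ((psiO H p : extO H) : F) = psi D₀ h p := rfl

theorem ker_psiO_le (H : KummerLift D₀ e u h ybar) :
    RingHom.ker (psiO H) ≤ RingHom.ker (phi D₀ ybar) := by
  intro p hp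
  rw [RingHom.mem_ker] at hp ⊢
  have : psi D₀ h p = 0 := by
    rw [← coe_psiO H p, hp]
    rfl
  exact phi_eq_zero_of_psi_eq_zero H this

/-- the reduction map `p(h) ↦ p̄(ȳ)` -/
def extRed (H : KummerLift D₀ e u h ybar) : extO H →+* K :=
  (psiO H).liftOfSurjective (psiO_surjective H) ⟨phi D₀ ybar, ker_psiO_le H⟩

theorem extRed_psiO (H : KummerLift D₀ e u h ybar) (p : (D₀.O)[X]) :
    extRed H (psiO H p) = phi D₀ ybar p :=
  RingHom.liftOfSurjective_comp_apply _ (psiO_surjective H) ⟨phi D₀ ybar, ker_psiO_le H⟩ p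

theorem extRed_surjective (H : KummerLift D₀ e u h ybar) : Function.Surjective (extRed H) := by
  intro z
  obtain ⟨pbar, hpbar⟩ := H.genbar.gen z
  have hl : pbar ∈ lifts D₀.red := by
    rw [lifts_iff_coeff_lifts]
    intro n
    exact D₀.red_surjective _
  obtain ⟨p, hp⟩ := (mem_lifts _).1 hl
  refine ⟨psiO H p, ?_⟩
  rw [extRed_psiO, phi_apply, hp, hpbar]

/-- **KC1**: the Gauss datum `(D₀.O[h], p(h) ↦ p̄(ȳ))` on `F`. -/
def gaussExt (H : KummerLift D₀ e u h ybar) : GaussDatum A F K where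
  O := extO H
  algebraMap_mem_iff c := by
    constructor
    · intro hc
      obtain ⟨p, hp⟩ := (mem_extO H).1 hc
      exact mem_of_algebraMap_eq_psi H hp
    · intro hc
      refine (mem_extO H).2 ⟨C ⟨algebraMap L F₀ c, (D₀.algebraMap_mem_iff c).2 hc⟩, ?_⟩
      rw [psi_apply, Polynomial.map_C, aeval_C]
      exact (IsScalarTower.algebraMap_apply L F₀ F c).symm
  red := extRed H
  red_surjective := extRed_surjective H
  red_algebraMap a ha := by
    have hmem : algebraMap L F₀ (a : L) ∈ D₀.O := (D₀.algebraMap_mem_iff _).2 a.2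
    have h1 : (⟨algebraMap L F (a : L), ha⟩ : extO H) =
        psiO H (C ⟨algebraMap L F₀ (a : L), hmem⟩) := by
      apply Subtype.ext
      rw [coe_psiO, psi_apply, Polynomial.map_C, aeval_C]
      exact IsScalarTower.algebraMap_apply L F₀ F _
    rw [h1, extRed_psiO, phi_apply, Polynomial.map_C, aeval_C, D₀.red_algebraMap a hmem,
      ← IsScalarTower.algebraMap_apply]
  exists_const_mul_isUnit f hf := by
    obtain ⟨c, hc, p, hp, hred⟩ := exists_const_mul_eq_psi H hf
    refine ⟨c, hc, ?_⟩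
    have hinv := inv_mem_ringB H hred
    have hp0 : psi D₀ h p ≠ 0 := fun h0 => hred (phi_eq_zero_of_psi_eq_zero H h0)
    refine ⟨⟨psiO H p, ⟨(psi D₀ h p)⁻¹, hinv⟩, ?_, ?_⟩, ?_⟩
    · apply Subtype.ext
      show psi D₀ h p * (psi D₀ h p)⁻¹ = 1
      exact mul_inv_cancel₀ hp0
    · apply Subtype.ext
      show (psi D₀ h p)⁻¹ * psi D₀ h p = 1
      exact inv_mul_cancel₀ hp0
    · show algebraMap L F c * f = psi D₀ h p
      exact hp.symm

end Fermat.Agent.S43lib.LGC.KC
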