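/-
S43lib / LGC / KC / GaussApi  (helper2)

API of `gaussExt` (KC1):

* `algebraMap_mem_gaussExt_iff`, `redF_gaussExt_algebraMap` : `gaussExt H` extends `D₀`;
* `gen_mem_gaussExt`, `redF_gaussExt_gen`                   : `h ∈ O`, `red h = ȳ`;
* `redF_gaussExt_psi`                                       : `red (p(h)) = p̄(ȳ)`;
* `eq_extO_of_forall_mem_iff`                               : UNIQUENESS of the valuation ring above
  `D₀.O`;
* `mem_gaussExt_of_ringEquiv` : every ring automorphism of `F` which preserves `F₀` and `D₀.O`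
  preserves `(gaussExt H).O`.
-/
import Fermat.Agent.S43lib.LGC.KC.Gauss

set_option autoImplicit false
set_option linter.unusedSectionVars false
set_option linter.unusedVariables false

noncomputable section

namespace Fermat.Agent.S43lib.LGC.KC

open Polynomial Fermat.Agent.S18lib

variable {L : Type*} [Field L] {A : ValuationSubring L}
variable {F₀ : Type*} [Field F₀] [Algebra L F₀]
variable {K₀ : Type*} [Field K₀] [Algebra (IsLocalRing.ResidueField A) K₀]
variable {F : Type*} [Field F] [Algebra L F] [Algebra F₀ F] [IsScalarTower L F₀ F]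
variable {K : Type*} [Field K] [Algebra (IsLocalRing.ResidueField A) K] [Algebra K₀ K]
variable [IsScalarTower (IsLocalRing.ResidueField A) K₀ K]
variable {D₀ : GaussDatum A F₀ K₀} {h : F} {ybar : K} {e : ℕ} {u : F₀}

local notation "k" => IsLocalRing.ResidueField A

theorem mem_gaussExt (H : KummerLift D₀ e u h ybar) {x : F} :
    x ∈ (gaussExt H).O ↔ ∃ p : (D₀.O)[X], psi D₀ h p = x := mem_extO H

theorem psi_mem_gaussExt (H : KummerLift D₀ e u h ybar) (p : (D₀.O)[X]) :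
    psi D₀ h p ∈ (gaussExt H).O := (mem_gaussExt H).2 ⟨p, rfl⟩

/-- `red (p(h)) = p̄(ȳ)` -/
theorem redF_gaussExt_psi (H : KummerLift D₀ e u h ybar) (p : (D₀.O)[X]) :
    (gaussExt H).redF (psi D₀ h p) = phi D₀ ybar p := by
  rw [(gaussExt H).redF_of_mem (psi_mem_gaussExt H p)]
  exact extRed_psiO H p

theorem psi_C (f₀ : D₀.O) : psi D₀ h (C f₀) = algebraMap F₀ F (f₀ : F₀) := by
  rw [psi_apply, Polynomial.map_C, aeval_C]
  rfl

theorem phi_C (f₀ : D₀.O) : phi D₀ ybar (C f₀) = algebraMap K₀ K (D₀.red f₀) := by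
  rw [phi_apply, Polynomial.map_C, aeval_C]

theorem psi_X : psi D₀ h (X : (D₀.O)[X]) = h := by
  rw [psi_apply, Polynomial.map_X, aeval_X]

theorem phi_X : phi D₀ ybar (X : (D₀.O)[X]) = ybar := by
  rw [phi_apply, Polynomial.map_X, aeval_X]

/-- elements of `F₀` in the range of `psi` lie in `D₀.O` -/
theorem mem_of_algebraMap_eq_psi' (H : KummerLift D₀ e u h ybar) {f₀ : F₀} {p : (D₀.O)[X]}
    (hp : psi D₀ h p = algebraMap F₀ F f₀) : f₀ ∈ D₀.O := by
  obtain ⟨r, hrdeg, hr, -⟩ := exists_rep_lt H p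
  rw [hp, psi_apply] at hr
  set q : F₀[X] := r.map D₀.O.subtype - C f₀ with hq
  have hq0 : aeval h q = 0 := by
    rw [hq, map_sub, hr, aeval_C, sub_self]
  have hqdeg : q.degree < e := by
    refine lt_of_le_of_lt (degree_sub_le _ _) (max_lt ?_ ?_)
    · exact lt_of_le_of_lt degree_map_le hrdeg
    · refine lt_of_le_of_lt degree_C_le ?_
      exact_mod_cast H.gen.pos
  have hq00 : q = 0 := by
    by_contra hne
    exact H.gen.aeval_ne_zero hne hqdeg hq0
  have h1 : f₀ = ((r.coeff 0 : D₀.O) : F₀) := by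
    have := congrArg (fun p => p.coeff 0) (sub_eq_zero.1 hq00)
    simp only [coeff_map, coeff_C_zero] at this
    exact this.symm
  rw [h1]
  exact (r.coeff 0).2

/-- `gaussExt H` extends `D₀`: the valuation ring -/
theorem algebraMap_mem_gaussExt_iff (H : KummerLift D₀ e u h ybar) (f₀ : F₀) :
    algebraMap F₀ F f₀ ∈ (gaussExt H).O ↔ f₀ ∈ D₀.O := by
  constructor
  · intro hf
    obtain ⟨p, hp⟩ := (mem_gaussExt H).1 hf
    exact mem_of_algebraMap_eq_psi' H hp
  · intro hf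
    exact (mem_gaussExt H).2 ⟨C ⟨f₀, hf⟩, psi_C _⟩

/-- `gaussExt H` extends `D₀`: the reduction -/
theorem redF_gaussExt_algebraMap (H : KummerLift D₀ e u h ybar) (f₀ : F₀) :
    (gaussExt H).redF (algebraMap F₀ F f₀) = algebraMap K₀ K (D₀.redF f₀) := by
  by_cases hf : f₀ ∈ D₀.O
  · have h1 : algebraMap F₀ F f₀ = psi D₀ h (C ⟨f₀, hf⟩) := (psi_C (h := h) ⟨f₀, hf⟩).symm
    rw [h1, redF_gaussExt_psi, phi_C, D₀.redF_of_mem hf]
  · rw [D₀.redF_of_not_mem hf, map_zero, (gaussExt H).redF_of_not_mem]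
    rwa [algebraMap_mem_gaussExt_iff]

theorem gen_mem_gaussExt (H : KummerLift D₀ e u h ybar) : h ∈ (gaussExt H).O :=
  (mem_gaussExt H).2 ⟨X, psi_X⟩

theorem redF_gaussExt_gen (H : KummerLift D₀ e u h ybar) : (gaussExt H).redF h = ybar := by
  have h1 := redF_gaussExt_psi H (X : (D₀.O)[X])
  rwa [psi_X, phi_X] at h1

/-- the residue class `ȳ` is nonzero as soon as `ū` is -/
theorem ybar_ne_zero (H : KummerLift D₀ e u h ybar) (hu : D₀.redF u ≠ 0) : ybar ≠ 0 :=
  H.genbar.gen_ne_zero hu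

/-! ### uniqueness -/

/-- every valuation ring of `F` containing `D₀.O` and `h` contains `D₀.O[h]` -/
theorem psi_mem_of_le (O' : ValuationSubring F)
    (hO' : ∀ f₀ : F₀, f₀ ∈ D₀.O → algebraMap F₀ F f₀ ∈ O') (hh : h ∈ O') (p : (D₀.O)[X]) :
    psi D₀ h p ∈ O' := by
  induction p using Polynomial.induction_on with
  | C a =>
    rw [psi_C]
    exact hO' _ a.2
  | add p q hp hq =>
    rw [map_add]
    exact O'.add_mem _ _ hp hq
  | monomial n a ih =>
    rw [pow_succ, ← mul_assoc, map_mul, psi_X]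
    exact O'.mul_mem _ _ ih hh

/-- **uniqueness of the extension**: a valuation ring `O'` of `F` with `O' ∩ F₀ = D₀.O` is
`D₀.O[h]`. -/
theorem eq_extO_of_forall_mem_iff (H : KummerLift D₀ e u h ybar) (O' : ValuationSubring F)
    (hO' : ∀ f₀ : F₀, algebraMap F₀ F f₀ ∈ O' ↔ f₀ ∈ D₀.O) : O' = (gaussExt H).O := by
  -- `h ∈ O'`
  have hh : h ∈ O' := by
    rcases O'.mem_or_inv_mem h with h1 | h1
    · exact h1
    · have hu' : h ^ e ∈ O' := by
        rw [H.gen.pow_eq]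
        exact (hO' u).2 H.u_mem
      obtain ⟨e', he'⟩ := Nat.exists_eq_succ_of_ne_zero H.gen.pos.ne'
      rcases eq_or_ne h 0 with rfl | hne
      · exact O'.zero_mem
      have : h = h ^ e * (h⁻¹) ^ e' := by
        rw [he', pow_succ, inv_pow, mul_comm (h ^ e'), mul_assoc, mul_inv_cancel₀
          (pow_ne_zero _ hne), mul_one]
      rw [this]
      exact O'.mul_mem _ _ hu' (O'.pow_mem h1 e')
  have hle : ∀ x, x ∈ (gaussExt H).O → x ∈ O' := by
    intro x hx
    obtain ⟨p, rfl⟩ := (mem_gaussExt H).1 hx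
    exact psi_mem_of_le O' (fun f₀ hf => (hO' f₀).2 hf) hh p
  have hconst : ∀ c : L, algebraMap L F c ∈ O' ↔ c ∈ A := by
    intro c
    rw [IsScalarTower.algebraMap_apply L F₀ F, hO', D₀.algebraMap_mem_iff]
  refine SetLike.ext fun f => ⟨fun hf => ?_, hle f⟩
  by_contra hfn
  have hf0 : f ≠ 0 := by
    rintro rfl
    exact hfn (ValuationSubring.zero_mem _)
  obtain ⟨c, hc, p, hp, hred⟩ := exists_const_mul_eq_psi H hf0
  have hinv : (psi D₀ h p)⁻¹ ∈ O' := hle _ (inv_mem_ringB H hred)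
  have hp0 : psi D₀ h p ≠ 0 := fun h0 => hred (phi_eq_zero_of_psi_eq_zero H h0)
  have hcF : algebraMap L F c ≠ 0 := (_root_.map_ne_zero _).2 hc
  -- `c⁻¹ = f * (psi p)⁻¹ ∈ O'`
  have h1 : algebraMap L F c⁻¹ = f * (psi D₀ h p)⁻¹ := by
    rw [hp, mul_inv, map_inv₀]
    field_simp
  have h2 : c⁻¹ ∈ A := (hconst _).1 (h1 ▸ O'.mul_mem _ _ hf hinv)
  apply hfn
  have h3 : f = algebraMap L F c⁻¹ * psi D₀ h p := by
    rw [hp, ← mul_assoc, ← map_mul, inv_mul_cancel₀ hc, map_one, one_mul]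
  rw [h3]
  exact (gaussExt H).O.mul_mem _ _ (((gaussExt H).algebraMap_mem_iff _).2 h2)
    (psi_mem_gaussExt H p)

/-- a ring automorphism of `F` preserving `F₀` and `D₀.O` preserves `D₀.O[h]` -/
theorem map_mem_gaussExt_iff (H : KummerLift D₀ e u h ybar) (σ : F ≃+* F) (σ₀ : F₀ ≃+* F₀)
    (hσ : ∀ f₀ : F₀, σ (algebraMap F₀ F f₀) = algebraMap F₀ F (σ₀ f₀))
    (hσ₀ : ∀ f₀ : F₀, σ₀ f₀ ∈ D₀.O ↔ f₀ ∈ D₀.O) (x : F) :
    σ x ∈ (gaussExt H).O ↔ x ∈ (gaussExt H).O := by
  -- the valuation ring `σ⁻¹ O`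
  let O' : ValuationSubring F := (gaussExt H).O.comap (σ : F →+* F)
  have hO' : ∀ f₀ : F₀, algebraMap F₀ F f₀ ∈ O' ↔ f₀ ∈ D₀.O := by
    intro f₀
    show σ (algebraMap F₀ F f₀) ∈ (gaussExt H).O ↔ _
    rw [hσ, algebraMap_mem_gaussExt_iff, hσ₀]
  have := eq_extO_of_forall_mem_iff H O' hO'
  show x ∈ O' ↔ _
  rw [this]

end Fermat.Agent.S43lib.LGC.KC
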