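/-
S43lib / LGC / KC / Tower  (helper2)

**The degree over `L(y)` in a tower** `L(y) ⊆ F₀ ⊆ F`, in the polynomial form used by
`LSb.Frame.exists_isFrameFamilyS`:

  `PolyDegLE L y N` : no `N + 1` elements are independent over `L[y]`.

* `rank_le_of_polyDegLE`     : `PolyDegLE L y N`, `y` transcendental ⟹ `[F : L(y)] ≤ N`;
* `polyDegLE_of_finrank_le`  : the converse, relative to a field `F ⊇ F₀ ∋ y`;
* `polyDegLE_tower`          : `PolyDegLE L y N₀` in `F₀`, `[F : F₀] = e` ⟹
                               `PolyDegLE L y (N₀ * e)` in `F`;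
* `finiteDimensional_adjoin_of_polyDegLE`.
-/
import Mathlib

set_option autoImplicit false
set_option linter.unusedSectionVars false
set_option linter.unusedVariables false

noncomputable section

namespace Fermat.Agent.S43lib.LGC.KC

open IntermediateField Polynomial Module

/-- no `N + 1` elements of `F` are independent over `L[y]` -/
def PolyDegLE (L : Type*) [Field L] {F : Type*} [Field F] [Algebra L F] (y : F) (N : ℕ) : Prop :=
  ∀ ω : Fin (N + 1) → F,
    ¬ ∀ p : Fin (N + 1) → L[X], ∑ i, aeval y (p i) * ω i = 0 → ∀ i, p i = 0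

section One

variable {L F : Type*} [Field L] [Field F] [Algebra L F]

theorem aeval_mem_adjoin_simple (y : F) (p : L[X]) : aeval y p ∈ L⟮y⟯ :=
  algebra_adjoin_le_adjoin L _ (Polynomial.aeval_mem_adjoin_singleton L _)

/-- poly-independence of a family which is linearly independent over `L(y)` -/
theorem poly_independent_of_linearIndependent {y : F} (hy : Transcendental L y) {n : ℕ}
    {x : Fin n → F} (hx : LinearIndependent L⟮y⟯ x) (p : Fin n → L[X])
    (hp : ∑ i, aeval y (p i) * x i = 0) : ∀ i, p i = 0 := by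
  intro i
  have h2 : ∑ i, (⟨aeval y (p i), aeval_mem_adjoin_simple y (p i)⟩ : L⟮y⟯) • x i = 0 := by
    rw [← hp]
    rfl
  have h3 := Fintype.linearIndependent_iff.mp hx _ h2
  have h4 : aeval y (p i) = 0 := congrArg Subtype.val (h3 i)
  exact (transcendental_iff.mp hy) _ h4

theorem rank_le_of_polyDegLE {y : F} (hy : Transcendental L y) {N : ℕ}
    (h : PolyDegLE L y N) : Module.rank L⟮y⟯ F ≤ (N : Cardinal) := by
  classical
  refine rank_le fun s hs => ?_
  by_contra hlt
  push Not at hlt
  -- `N + 1` elements of `s`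
  have hle : N + 1 ≤ s.card := hlt
  let x : Fin (N + 1) → F := fun i => (s.equivFin.symm (Fin.castLE hle i) : s)
  have hinj : Function.Injective fun i : Fin (N + 1) => s.equivFin.symm (Fin.castLE hle i) :=
    s.equivFin.symm.injective.comp (Fin.castLE_injective hle)
  have hx : LinearIndependent L⟮y⟯ x := hs.comp _ hinj
  exact h x (poly_independent_of_linearIndependent hy hx)

theorem finiteDimensional_adjoin_of_polyDegLE {y : F} (hy : Transcendental L y) {N : ℕ}
    (h : PolyDegLE L y N) : FiniteDimensional L⟮y⟯ F := by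
  rw [FiniteDimensional, ← Module.rank_lt_aleph0_iff]
  exact (rank_le_of_polyDegLE hy h).trans_lt Cardinal.natCast_lt_aleph0

theorem finrank_le_of_polyDegLE {y : F} (hy : Transcendental L y) {N : ℕ}
    (h : PolyDegLE L y N) : Module.finrank L⟮y⟯ F ≤ N :=
  Module.finrank_le_of_rank_le (rank_le_of_polyDegLE hy h)

/-- common denominators in `L⟮x⟯` (as `ProgramR.BarField.exists_common_denom_adjoin`, without
the characteristic zero assumption) -/
theorem exists_common_denom_adjoin_simple (x : F) {m : ℕ} (c : Fin m → L⟮x⟯) :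
    ∃ d : L[X], aeval x d ≠ 0 ∧ ∀ k, ∃ a : L[X], (c k : F) * aeval x d = aeval x a := by
  classical
  have h : ∀ k, ∃ r s : L[X], aeval x s ≠ 0 ∧ (c k : F) * aeval x s = aeval x r := by
    intro k
    obtain ⟨r, s, hrs⟩ := (mem_adjoin_simple_iff L (c k : F)).mp (c k).2
    by_cases hs : aeval x s = 0
    · refine ⟨0, 1, by simp, ?_⟩
      rw [hrs, hs, div_zero, zero_mul, map_zero]
    · exact ⟨r, s, hs, by rw [hrs, div_mul_cancel₀ _ hs]⟩
  choose r s hs hrs using h
  refine ⟨∏ k, s k, ?_, fun k ↦ ⟨r k * ∏ k' ∈ Finset.univ.erase k, s k', ?_⟩⟩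
  · rw [map_prod]
    exact Finset.prod_ne_zero_iff.mpr fun k _ ↦ hs k
  · rw [← Finset.mul_prod_erase Finset.univ s (Finset.mem_univ k), map_mul, map_mul, ← mul_assoc,
      hrs k]

/-- a poly-independent nonempty family forces `y` to be transcendental -/
theorem transcendental_of_poly_independent {y : F} {n : ℕ} (ω : Fin (n + 1) → F)
    (hω : ∀ p : Fin (n + 1) → L[X], ∑ i, aeval y (p i) * ω i = 0 → ∀ i, p i = 0) :
    Transcendental L y := by
  classical
  rw [transcendental_iff]
  intro q hq
  have h1 := hω (fun i => if i = 0 then q else 0) ?_ 0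
  · simpa using h1
  · refine Finset.sum_eq_zero fun i _ => ?_
    by_cases hi : i = 0
    · rw [if_pos hi, hq, zero_mul]
    · rw [if_neg hi, map_zero, zero_mul]

end One

section Tower

variable {L F₀ F : Type*} [Field L] [Field F₀] [Field F] [Algebra L F₀] [Algebra L F]
  [Algebra F₀ F] [IsScalarTower L F₀ F]

theorem algebraMap_aeval (y : F₀) (p : L[X]) :
    algebraMap F₀ F (aeval y p) = aeval (algebraMap F₀ F y) p :=
  (aeval_algebraMap_apply F y p).symm

theorem transcendental_algebraMap {y : F₀} (hy : Transcendental L y) :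
    Transcendental L (algebraMap F₀ F y) := by
  rw [transcendental_iff] at hy ⊢
  intro p hp
  refine hy p ?_
  rw [← algebraMap_aeval] at hp
  exact (map_eq_zero _).1 hp

/-- the converse, relative to `F ⊇ F₀ ∋ y` -/
theorem polyDegLE_of_finrank_le (y : F₀) [FiniteDimensional L⟮y⟯ F] {N : ℕ}
    (hN : Module.finrank L⟮y⟯ F ≤ N) : PolyDegLE L (algebraMap F₀ F y) N := by
  classical
  intro ω hω
  have hy' : Transcendental L (algebraMap F₀ F y) := transcendental_of_poly_independent ω hω
  -- `ω` is linearly independent over `L(y)`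
  have hli : LinearIndependent L⟮y⟯ ω := by
    rw [Fintype.linearIndependent_iff]
    intro c hc
    obtain ⟨d, hd, ha⟩ := exists_common_denom_adjoin_simple y c
    choose a ha using ha
    have hrel : ∑ k, aeval (algebraMap F₀ F y) (a k) * ω k = 0 := by
      have h1 : ∑ k, aeval (algebraMap F₀ F y) (a k) * ω k =
          algebraMap F₀ F (aeval y d) * ∑ k, c k • ω k := by
        rw [Finset.mul_sum]
        refine Finset.sum_congr rfl fun k _ => ?_
        rw [← algebraMap_aeval, ← ha k, map_mul]
        have hsm : c k • ω k = algebraMap F₀ F (c k : F₀) * ω k := by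
          rw [Algebra.smul_def]; rfl
        rw [hsm]
        ring
      rw [h1, hc, mul_zero]
    have ha0 := hω a hrel
    intro k
    have h1 := ha k
    rw [ha0 k, map_zero] at h1
    have h2 := (mul_eq_zero.mp h1).resolve_right hd
    exact Subtype.ext h2
  have h3 := hli.fintype_card_le_finrank
  rw [Fintype.card_fin] at h3
  omega

/-- **the tower law in polynomial form** -/
theorem polyDegLE_tower {y : F₀} (hy : Transcendental L y) {N₀ e : ℕ}
    (h₀ : PolyDegLE L y N₀) [FiniteDimensional F₀ F] (he : Module.finrank F₀ F = e) :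
    PolyDegLE L (algebraMap F₀ F y) (N₀ * e) := by
  have := finiteDimensional_adjoin_of_polyDegLE hy h₀
  have : FiniteDimensional L⟮y⟯ F := Module.Finite.trans F₀ F
  refine polyDegLE_of_finrank_le y ?_
  rw [← Module.finrank_mul_finrank L⟮y⟯ F₀ F, he]
  exact Nat.mul_le_mul_right _ (finrank_le_of_polyDegLE hy h₀)

end Tower

end Fermat.Agent.S43lib.LGC.KC
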