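/-
S43lib / LGC / KC / Frame  (helper2)

**Sup-norm frames of a Kummer cover.**  `OneSided D1 D2 y θ1 θ2` packages the input of
`LSb.Frame.exists_isFrameFamilyS` (one-sided frames for two Gauss data `D1 D2` on `F₀` and the
degree bound `[F₀ : L(y)] ≤ n1 + n2`).  For a Kummer cover `F = F₀[h₁] = F₀[h₂]` with Kummer lifts
`H₁ : KummerLift D1 e u₁ h₁ ȳ₁`, `H₂ : KummerLift D2 e u₂ h₂ ȳ₂` the families

  `θ1_i h₁^m`,  `θ2_i h₂^m`   (`m < e`)

are one-sided frames for the extended Gauss data (`OneSided.cover`): the count is the tower law.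
-/
import Fermat.Agent.S43lib.LGC.KC.GaussApi
import Fermat.Agent.S43lib.LGC.KC.Basic
import Fermat.Agent.S43lib.LGC.KC.Tower
import Fermat.Agent.LSb.Frame.Build
import Fermat.Agent.LSb.Frame.Integral

set_option autoImplicit false
set_option linter.unusedSectionVars false
set_option linter.unusedVariables false

noncomputable section

namespace Fermat.Agent.S43lib.LGC.KC

open Polynomial Fermat.Agent.S18lib Fermat.Agent.LSb.Frame

variable {L : Type*} [Field L] {A : ValuationSubring L}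
variable {F₀ : Type*} [Field F₀] [Algebra L F₀]
variable {K₁ K₂ : Type*} [Field K₁] [Field K₂]
variable [Algebra (IsLocalRing.ResidueField A) K₁] [Algebra (IsLocalRing.ResidueField A) K₂]

local notation "k" => IsLocalRing.ResidueField A

/-- one-sided frame data for a pair of Gauss data: the input of
`LSb.Frame.exists_isFrameFamilyS` -/
structure OneSided (D1 : GaussDatum A F₀ K₁) (D2 : GaussDatum A F₀ K₂) (y : F₀) {n1 n2 : ℕ}
    (θ1 : Fin n1 → F₀) (θ2 : Fin n2 → F₀) : Prop where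
  rankOne : RankOneDvd A
  ne : D1.O ≠ D2.O
  y_mem : y ∈ supO D1 D2
  n1_pos : 0 < n1
  n2_pos : 0 < n2
  mem1 : ∀ i, θ1 i ∈ D1.O
  mem2 : ∀ i, θ2 i ∈ D2.O
  ind1 : LinearIndependent k (fun m : ℕ × Fin n1 => D1.redF y ^ m.1 * D1.redF (θ1 m.2))
  ind2 : LinearIndependent k (fun m : ℕ × Fin n2 => D2.redF y ^ m.1 * D2.redF (θ2 m.2))
  deg : PolyDegLE L y (n1 + n2)

namespace OneSided

variable {D1 : GaussDatum A F₀ K₁} {D2 : GaussDatum A F₀ K₂} {y : F₀} {n1 n2 : ℕ}
  {θ1 : Fin n1 → F₀} {θ2 : Fin n2 → F₀}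

theorem exists_frame (S : OneSided D1 D2 y θ1 θ2) :
    ∃ θ : Fin (n1 + n2) → F₀, IsFrameFamilyS D1 D2 y θ := by
  obtain ⟨θ, h, -, -⟩ := exists_isFrameFamilyS S.rankOne S.ne S.y_mem S.n1_pos S.n2_pos θ1 θ2
    S.mem1 S.mem2 S.ind1 S.ind2 S.deg
  exact ⟨θ, h⟩

theorem transcendental (S : OneSided D1 D2 y θ1 θ2) : Transcendental L y := by
  obtain ⟨θ, h⟩ := S.exists_frame
  exact h.transcendental

theorem finiteDimensional (S : OneSided D1 D2 y θ1 θ2) :
    FiniteDimensional (IntermediateField.adjoin L {y}) F₀ :=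
  finiteDimensional_adjoin_of_polyDegLE S.transcendental S.deg

end OneSided

/-! ### the cover -/

section Cover

variable {F : Type*} [Field F] [Algebra L F] [Algebra F₀ F] [IsScalarTower L F₀ F]
variable {K₁' K₂' : Type*} [Field K₁'] [Field K₂']
variable [Algebra (IsLocalRing.ResidueField A) K₁'] [Algebra K₁ K₁']
variable [IsScalarTower (IsLocalRing.ResidueField A) K₁ K₁']
variable [Algebra (IsLocalRing.ResidueField A) K₂'] [Algebra K₂ K₂']
variable [IsScalarTower (IsLocalRing.ResidueField A) K₂ K₂']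

/-- the family `θ_i h^m`, `m < e` -/
def coverFam (e : ℕ) {n : ℕ} (θ : Fin n → F₀) (h : F) : Fin (n * e) → F := fun l =>
  algebraMap F₀ F (θ (finProdFinEquiv.symm l).1) * h ^ ((finProdFinEquiv.symm l).2 : ℕ)

/-- independence of the products `b_i ȳ^m` -/
theorem linearIndependent_cover {K₀ K : Type*} [Field K₀] [Field K]
    [Algebra (IsLocalRing.ResidueField A) K₀] [Algebra (IsLocalRing.ResidueField A) K]
    [Algebra K₀ K] [IsScalarTower (IsLocalRing.ResidueField A) K₀ K] {e : ℕ} {ubar : K₀}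
    {ybar : K} (H : IsKummerGen e ubar ybar) {n : ℕ} (z : K₀) (b : Fin n → K₀)
    (hb : LinearIndependent k (fun m : ℕ × Fin n => z ^ m.1 * b m.2)) :
    LinearIndependent k (fun m : ℕ × Fin (n * e) =>
      algebraMap K₀ K z ^ m.1 * (algebraMap K₀ K (b (finProdFinEquiv.symm m.2).1) *
        ybar ^ ((finProdFinEquiv.symm m.2).2 : ℕ))) := by
  have hc : LinearIndependent K₀ (fun j : Fin e => ybar ^ (j : ℕ)) := by
    have := H.basis.linearIndependent
    have h2 : (fun j : Fin e => ybar ^ (j : ℕ)) = H.basis := by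
      funext j; rw [H.basis_apply]
    rw [h2]; exact this
  have h1 := linearIndependent_smul hb hc
  -- reindex
  let φ : ℕ × Fin (n * e) → (ℕ × Fin n) × Fin e := fun m =>
    ((m.1, (finProdFinEquiv.symm m.2).1), (finProdFinEquiv.symm m.2).2)
  have hφ : Function.Injective φ := by
    rintro ⟨a, l⟩ ⟨a', l'⟩ hh
    simp only [φ, Prod.mk.injEq] at hh
    obtain ⟨⟨h1, h2⟩, h3⟩ := hh
    have : finProdFinEquiv.symm l = finProdFinEquiv.symm l' := Prod.ext h2 h3
    rw [h1, finProdFinEquiv.symm.injective this]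
  have h2 := h1.comp φ hφ
  convert h2 using 1
  funext m
  simp only [Function.comp_apply, φ]
  rw [Algebra.smul_def, map_mul, map_pow, mul_assoc]

variable {D1 : GaussDatum A F₀ K₁} {D2 : GaussDatum A F₀ K₂} {y : F₀} {n1 n2 : ℕ}
  {θ1 : Fin n1 → F₀} {θ2 : Fin n2 → F₀}
variable {e : ℕ} {u₁ u₂ : F₀} {h₁ h₂ : F} {ybar₁ : K₁'} {ybar₂ : K₂'}

theorem coverFam_mem {K₀ K : Type*} [Field K₀] [Field K]
    [Algebra (IsLocalRing.ResidueField A) K₀] [Algebra (IsLocalRing.ResidueField A) K]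
    [Algebra K₀ K] [IsScalarTower (IsLocalRing.ResidueField A) K₀ K] {D₀ : GaussDatum A F₀ K₀}
    {u : F₀} {h : F} {ybar : K} (H : KummerLift D₀ e u h ybar) {n : ℕ} {θ : Fin n → F₀}
    (hθ : ∀ i, θ i ∈ D₀.O) (l : Fin (n * e)) : coverFam e θ h l ∈ (gaussExt H).O :=
  (gaussExt H).O.mul_mem _ _ ((algebraMap_mem_gaussExt_iff H _).2 (hθ _))
    ((gaussExt H).O.pow_mem (gen_mem_gaussExt H) _)

theorem redF_coverFam {K₀ K : Type*} [Field K₀] [Field K]
    [Algebra (IsLocalRing.ResidueField A) K₀] [Algebra (IsLocalRing.ResidueField A) K]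
    [Algebra K₀ K] [IsScalarTower (IsLocalRing.ResidueField A) K₀ K] {D₀ : GaussDatum A F₀ K₀}
    {u : F₀} {h : F} {ybar : K} (H : KummerLift D₀ e u h ybar) {n : ℕ} {θ : Fin n → F₀}
    (hθ : ∀ i, θ i ∈ D₀.O) (l : Fin (n * e)) :
    (gaussExt H).redF (coverFam e θ h l) =
      algebraMap K₀ K (D₀.redF (θ (finProdFinEquiv.symm l).1)) *
        ybar ^ ((finProdFinEquiv.symm l).2 : ℕ) := by
  rw [coverFam, (gaussExt H).redF_mul ((algebraMap_mem_gaussExt_iff H _).2 (hθ _))
    ((gaussExt H).O.pow_mem (gen_mem_gaussExt H) _), (gaussExt H).redF_pow (gen_mem_gaussExt H),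
    redF_gaussExt_gen, redF_gaussExt_algebraMap]

/-- the two extended valuation rings are different -/
theorem gaussExt_O_ne (H₁ : KummerLift D1 e u₁ h₁ ybar₁) (H₂ : KummerLift D2 e u₂ h₂ ybar₂)
    (hne : D1.O ≠ D2.O) : (gaussExt H₁).O ≠ (gaussExt H₂).O := by
  intro heq
  apply hne
  ext f
  rw [← algebraMap_mem_gaussExt_iff H₁, ← algebraMap_mem_gaussExt_iff H₂, heq]

/-- **one-sided frames of the cover** -/
theorem OneSided.cover (S : OneSided D1 D2 y θ1 θ2) (H₁ : KummerLift D1 e u₁ h₁ ybar₁)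
    (H₂ : KummerLift D2 e u₂ h₂ ybar₂) :
    OneSided (gaussExt H₁) (gaussExt H₂) (algebraMap F₀ F y) (coverFam e θ1 h₁)
      (coverFam e θ2 h₂) := by
  have hy1 := (mem_supO.1 S.y_mem).1
  have hy2 := (mem_supO.1 S.y_mem).2
  have hfin : FiniteDimensional F₀ F := H₁.gen.finiteDimensional
  refine
    { rankOne := S.rankOne
      ne := gaussExt_O_ne H₁ H₂ S.ne
      y_mem := mem_supO.2 ⟨(algebraMap_mem_gaussExt_iff H₁ _).2 hy1,
        (algebraMap_mem_gaussExt_iff H₂ _).2 hy2⟩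
      n1_pos := Nat.mul_pos S.n1_pos H₁.gen.pos
      n2_pos := Nat.mul_pos S.n2_pos H₁.gen.pos
      mem1 := coverFam_mem H₁ S.mem1
      mem2 := coverFam_mem H₂ S.mem2
      ind1 := ?_
      ind2 := ?_
      deg := ?_ }
  · have h := linearIndependent_cover (A := A) H₁.genbar (D1.redF y) (fun i => D1.redF (θ1 i)) S.ind1
    convert h using 1
    funext m
    rw [redF_gaussExt_algebraMap, redF_coverFam H₁ S.mem1]
  · have h := linearIndependent_cover (A := A) H₂.genbar (D2.redF y) (fun i => D2.redF (θ2 i)) S.ind2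
    convert h using 1
    funext m
    rw [redF_gaussExt_algebraMap, redF_coverFam H₂ S.mem2]
  · have h := polyDegLE_tower S.transcendental S.deg H₁.gen.finrank_eq (F := F)
    rwa [Nat.add_mul] at h

end Cover

end Fermat.Agent.S43lib.LGC.KC
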