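/-
S43lib / LGC / KC / Places  (helper2)

**Places of a Kummer-type extension `M = M₀[ȳ]`, `ȳ ^ e = ū`, of function fields over `𝕜`.**

* `restrict_smul`           : deck transformations preserve the fibres of `restrict`;
* `ramificationIndex_eq_of_isCoprime` : at a place `x` of `M₀` with `gcd(e, ord_x ū) = 1` every place
  above `x` has ramification index `e` (TOTAL RAMIFICATION);
* `eq_of_restrict_eq_of_isCoprime`    : there is only one place above such an `x`;
* `exists_restrict_eq`      : there is a place above every place;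
* `smul_eq_of_isCoprime`    : it is fixed by all deck transformations;
* `hasValueAt_algEquiv_iff`, `hasValueAt_algebraMap_iff` : values of functions under automorphisms and
  under restriction.
-/
import Fermat.Agent.S43lib.LGC.KC.Basic
import Fermat.Agent.LSb.Core.Value
import Fermat.Prelude.Def_AlgebraicCurve_DivisorPushPull

set_option autoImplicit false
set_option linter.unusedSectionVars false
set_option linter.unusedVariables false

noncomputable section

namespace Fermat.Agent.S43lib.LGC.KC

open AlgebraicCurve Fermat.Agent.LSb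
open scoped Pointwise

variable {𝕜 M₀ M : Type*} [Field 𝕜] [Field M₀] [Field M] [Algebra 𝕜 M₀] [Algebra 𝕜 M]
  [Algebra M₀ M] [IsScalarTower 𝕜 M₀ M] [Algebra.IsIntegral M₀ M]

/-! ### automorphisms over `M₀` and restriction -/

theorem restrict_smul (σ : M ≃ₐ[M₀] M) (w : Place 𝕜 M) :
    ((σ.restrictScalars 𝕜) • w).restrict M₀ = w.restrict M₀ := by
  apply Place.ext
  ext f
  rw [Place.restrict_toValuationSubring, Place.restrict_toValuationSubring,
    ValuationSubring.mem_comap, ValuationSubring.mem_comap, Place.smul_toValuationSubring,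
    ValuationSubring.mem_pointwise_smul_iff_inv_smul_mem]
  have : (σ.restrictScalars 𝕜)⁻¹ • (algebraMap M₀ M f) = algebraMap M₀ M f := by
    show (σ.restrictScalars 𝕜).symm (algebraMap M₀ M f) = _
    rw [AlgEquiv.symm_apply_eq]
    exact (σ.commutes f).symm
  rw [this]

theorem ramificationIndex_smul (σ : M ≃ₐ[M₀] M) (w : Place 𝕜 M) :
    ((σ.restrictScalars 𝕜) • w).ramificationIndex M₀ = w.ramificationIndex M₀ := by
  unfold Place.ramificationIndex
  congr 1
  ext n
  simp only [Set.mem_ofPred_eq]
  refine and_congr Iff.rfl (exists_congr fun f => and_congr Iff.rfl ?_)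
  have h1 := Place.ord_smul (σ.restrictScalars 𝕜) w (algebraMap M₀ M f)
  have h2 : (σ.restrictScalars 𝕜) (algebraMap M₀ M f) = algebraMap M₀ M f := σ.commutes f
  rw [h2] at h1
  rw [h1]

/-! ### values -/

theorem hasValueAt_algEquiv_iff (σ : M ≃ₐ[𝕜] M) (w : Place 𝕜 M) (z : M) (c : 𝕜) :
    HasValueAt (σ • w) (σ z) c ↔ HasValueAt w z c := by
  rw [hasValueAt_iff, hasValueAt_iff]
  have h1 : σ z - algebraMap 𝕜 M c = σ (z - algebraMap 𝕜 M c) := by
    rw [map_sub, σ.commutes]
  rw [h1, Place.ord_smul]
  constructor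
  · rintro (h | h)
    · left
      have : σ z = σ (algebraMap 𝕜 M c) := by rw [h, σ.commutes]
      exact σ.injective this
    · exact Or.inr h
  · rintro (h | h)
    · left
      rw [h, σ.commutes]
    · exact Or.inr h

theorem hasValueAt_algebraMap_iff (w : Place 𝕜 M) (z : M₀) (c : 𝕜) :
    HasValueAt w (algebraMap M₀ M z) c ↔ HasValueAt (w.restrict M₀) z c := by
  rw [hasValueAt_iff, hasValueAt_iff]
  have h1 : algebraMap M₀ M z - algebraMap 𝕜 M c = algebraMap M₀ M (z - algebraMap 𝕜 M₀ c) := by
    rw [map_sub, ← IsScalarTower.algebraMap_apply]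
  rw [h1, Place.ord_restrict]
  have hpos : (0 : ℤ) < (w.ramificationIndex M₀ : ℤ) := by
    exact_mod_cast w.ramificationIndex_pos (F := M₀)
  constructor
  · rintro (h | h)
    · left
      have h2 : algebraMap M₀ M z = algebraMap M₀ M (algebraMap 𝕜 M₀ c) := by
        rw [h, ← IsScalarTower.algebraMap_apply]
      exact (algebraMap M₀ M).injective h2
    · right
      by_contra hcon
      push Not at hcon
      have := mul_nonpos_of_nonneg_of_nonpos hpos.le hcon
      omega
  · rintro (h | h)
    · left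
      rw [h, ← IsScalarTower.algebraMap_apply]
    · right
      exact mul_pos hpos h

/-! ### total ramification -/

section Kummer

variable {e : ℕ} {ubar : M₀} {ybar : M}

theorem ord_gen_mul (H : IsKummerGen e ubar ybar) (w : Place 𝕜 M) :
    (e : ℤ) * w.ord ybar = (w.ramificationIndex M₀ : ℤ) * (w.restrict M₀).ord ubar := by
  rw [← Place.ord_restrict, ← H.pow_eq, ← zpow_natCast, Place.ord_zpow]

variable [HasPrincipalDivisors 𝕜 M] [FundamentalIdentity 𝕜 M₀ M]

/-- the ramification index of a place of degree one is at most the degree of the extension -/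
theorem ramificationIndex_le_finrank (hdeg : ∀ w : Place 𝕜 M, w.deg = 1)
    (hdeg₀ : ∀ x : Place 𝕜 M₀, x.deg = 1) (w : Place 𝕜 M) :
    (w.ramificationIndex M₀ : ℤ) ≤ Module.finrank M₀ M := by
  have h := FundamentalIdentity.sum_ramificationIndex_mul_deg (K := 𝕜) (F := M₀) (F' := M)
    (w.restrict M₀)
  rw [hdeg₀, Nat.cast_one, mul_one] at h
  rw [← h]
  have hmem : w ∈ (w.restrict M₀).fiber M := Place.restrict_mem_fiber w
  have hle := Finset.single_le_sum (f := fun w' : Place 𝕜 M =>
    (w'.ramificationIndex M₀ : ℤ) * (w'.deg : ℤ)) (fun w' _ => by positivity) hmem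
  simpa [hdeg w] using hle

/-- there is a place above every place -/
theorem exists_restrict_eq (hfr : 0 < Module.finrank M₀ M) (hdeg₀ : ∀ x : Place 𝕜 M₀, x.deg = 1)
    (x : Place 𝕜 M₀) : ∃ w : Place 𝕜 M, w.restrict M₀ = x := by
  have h := FundamentalIdentity.sum_ramificationIndex_mul_deg (K := 𝕜) (F := M₀) (F' := M) x
  by_contra hcon
  push Not at hcon
  have hempty : x.fiber M = ∅ := by
    rw [Finset.eq_empty_iff_forall_notMem]
    intro w hw
    exact hcon w (Place.mem_fiber.1 hw)
  rw [hempty, Finset.sum_empty, hdeg₀, Nat.cast_one, mul_one] at h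
  have : (0 : ℤ) < (Module.finrank M₀ M : ℤ) := by exact_mod_cast hfr
  omega

/-- **total ramification**: `gcd(e, ord_x ū) = 1` forces ramification index `e` -/
theorem ramificationIndex_eq_of_isCoprime (H : IsKummerGen e ubar ybar)
    (hdeg : ∀ w : Place 𝕜 M, w.deg = 1) (hdeg₀ : ∀ x : Place 𝕜 M₀, x.deg = 1)
    {w : Place 𝕜 M} (hx : IsCoprime (e : ℤ) ((w.restrict M₀).ord ubar)) :
    w.ramificationIndex M₀ = e := by
  have h1 := ord_gen_mul H w
  have hdvd : (e : ℤ) ∣ (w.ramificationIndex M₀ : ℤ) := by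
    have : (e : ℤ) ∣ (w.ramificationIndex M₀ : ℤ) * (w.restrict M₀).ord ubar := ⟨_, h1.symm⟩
    exact hx.dvd_of_dvd_mul_right this
  have hle := ramificationIndex_le_finrank hdeg hdeg₀ w
  rw [H.finrank_eq] at hle
  have hpos : (0 : ℤ) < (w.ramificationIndex M₀ : ℤ) := by
    exact_mod_cast w.ramificationIndex_pos (F := M₀)
  have := Int.le_of_dvd hpos hdvd
  have h2 : (w.ramificationIndex M₀ : ℤ) = e := le_antisymm hle this
  exact_mod_cast h2

/-- **uniqueness of the place above a totally ramified point** -/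
theorem eq_of_restrict_eq_of_isCoprime (H : IsKummerGen e ubar ybar)
    (hdeg : ∀ w : Place 𝕜 M, w.deg = 1) (hdeg₀ : ∀ x : Place 𝕜 M₀, x.deg = 1)
    {x : Place 𝕜 M₀} (hx : IsCoprime (e : ℤ) (x.ord ubar)) {w w' : Place 𝕜 M}
    (hw : w.restrict M₀ = x) (hw' : w'.restrict M₀ = x) : w = w' := by
  classical
  by_contra hne
  have h := FundamentalIdentity.sum_ramificationIndex_mul_deg (K := 𝕜) (F := M₀) (F' := M) x
  rw [hdeg₀, Nat.cast_one, mul_one, H.finrank_eq] at h
  have hmem : w ∈ x.fiber M := Place.mem_fiber.2 hw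
  have hmem' : w' ∈ x.fiber M := Place.mem_fiber.2 hw'
  have he : w.ramificationIndex M₀ = e :=
    ramificationIndex_eq_of_isCoprime H hdeg hdeg₀ (by rwa [hw])
  have he' : w'.ramificationIndex M₀ = e :=
    ramificationIndex_eq_of_isCoprime H hdeg hdeg₀ (by rwa [hw'])
  have hsub : ({w, w'} : Finset (Place 𝕜 M)) ⊆ x.fiber M := by
    intro z hz
    rw [Finset.mem_insert, Finset.mem_singleton] at hz
    rcases hz with rfl | rfl
    · exact hmem
    · exact hmem'
  have hle := Finset.sum_le_sum_of_subset_of_nonneg hsub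
    (f := fun w' : Place 𝕜 M => (w'.ramificationIndex M₀ : ℤ) * (w'.deg : ℤ))
    (fun _ _ _ => by positivity)
  rw [Finset.sum_pair hne, h, hdeg, hdeg, he, he'] at hle
  have : (0 : ℤ) < e := by exact_mod_cast H.pos
  simp only [Nat.cast_one, mul_one] at hle
  omega

/-- a totally ramified point is fixed by the deck transformations -/
theorem smul_eq_of_isCoprime (H : IsKummerGen e ubar ybar)
    (hdeg : ∀ w : Place 𝕜 M, w.deg = 1) (hdeg₀ : ∀ x : Place 𝕜 M₀, x.deg = 1)
    {w : Place 𝕜 M} (hx : IsCoprime (e : ℤ) ((w.restrict M₀).ord ubar)) (σ : M ≃ₐ[M₀] M) :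
    (σ.restrictScalars 𝕜) • w = w :=
  eq_of_restrict_eq_of_isCoprime H hdeg hdeg₀ hx (restrict_smul σ w) rfl

end Kummer

end Fermat.Agent.S43lib.LGC.KC
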