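/-
S43lib / LGC / KC / Pull  (helper2)

Zero and pole divisors of functions pulled back along a finite extension `M / M₀` of function
fields over `𝕜`:

  `(π^* z)_∞ = π^* (z)_∞`,   `(π^* z)_0 = π^* (z)_0`,

hence (fundamental identity) their degrees are multiplied by `[M : M₀]`, and a place `w` of `M`
lies in the support of `π^* E` iff its restriction lies in the support of `E`.
-/
import Fermat.Agent.S43lib.LGC.KC.Places
import Fermat.Agent.S18lib.Setup.DatumFibre

set_option autoImplicit false
set_option linter.unusedSectionVars false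
set_option linter.unusedVariables false

noncomputable section

namespace Fermat.Agent.S43lib.LGC.KC

open AlgebraicCurve Fermat.Agent.S18lib

variable {𝕜 M₀ M : Type*} [Field 𝕜] [Field M₀] [Field M] [Algebra 𝕜 M₀] [Algebra 𝕜 M]
  [Algebra M₀ M] [IsScalarTower 𝕜 M₀ M] [Algebra.IsIntegral M₀ M]
  [HasPrincipalDivisors 𝕜 M₀] [HasPrincipalDivisors 𝕜 M]

theorem polesOf_algebraMap_eq_pullback (z : M₀) :
    polesOf (K := 𝕜) (algebraMap M₀ M z) = Divisor.pullback M (polesOf (K := 𝕜) z) := by
  ext w
  have hr : (0 : ℤ) < (w.ramificationIndex M₀ : ℤ) := by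
    exact_mod_cast w.ramificationIndex_pos (F := M₀)
  rw [polesOf_apply, Divisor.pullback_apply, polesOf_apply, Place.ord_restrict,
    mul_max_of_nonneg _ _ hr.le, mul_zero, mul_neg]

theorem zerosOf_algebraMap_eq_pullback (z : M₀) :
    zerosOf (K := 𝕜) (algebraMap M₀ M z) = Divisor.pullback M (zerosOf (K := 𝕜) z) := by
  ext w
  have hr : (0 : ℤ) < (w.ramificationIndex M₀ : ℤ) := by
    exact_mod_cast w.ramificationIndex_pos (F := M₀)
  rw [zerosOf_apply, Divisor.pullback_apply, zerosOf_apply, Place.ord_restrict,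
    mul_max_of_nonneg _ _ hr.le, mul_zero]

theorem zerosOf_algebraMap_sub_eq_pullback (z : M₀) (c : 𝕜) :
    zerosOf (K := 𝕜) (algebraMap M₀ M z - algebraMap 𝕜 M c) =
      Divisor.pullback M (zerosOf (K := 𝕜) (z - algebraMap 𝕜 M₀ c)) := by
  rw [← zerosOf_algebraMap_eq_pullback, map_sub, ← IsScalarTower.algebraMap_apply]

theorem degree_polesOf_algebraMap [FundamentalIdentity 𝕜 M₀ M] (z : M₀) :
    Divisor.degree (polesOf (K := 𝕜) (algebraMap M₀ M z)) =
      (Module.finrank M₀ M : ℤ) * Divisor.degree (polesOf (K := 𝕜) z) := by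
  rw [polesOf_algebraMap_eq_pullback, Divisor.degree_pullback]

theorem degree_zerosOf_algebraMap_sub [FundamentalIdentity 𝕜 M₀ M] (z : M₀) (c : 𝕜) :
    Divisor.degree (zerosOf (K := 𝕜) (algebraMap M₀ M z - algebraMap 𝕜 M c)) =
      (Module.finrank M₀ M : ℤ) * Divisor.degree (zerosOf (K := 𝕜) (z - algebraMap 𝕜 M₀ c)) := by
  rw [zerosOf_algebraMap_sub_eq_pullback, Divisor.degree_pullback]

/-- a place is off the support of a pulled back divisor as soon as its restriction is off the
support of the divisor -/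
theorem not_mem_support_pullback {E : Divisor 𝕜 M₀} {w : Place 𝕜 M}
    (h : w.restrict M₀ ∉ E.support) : w ∉ (Divisor.pullback M E).support := by
  rw [Finsupp.mem_support_iff, not_not] at h ⊢
  rw [Divisor.pullback_apply, h, mul_zero]

/-- `n • pullback = pullback (n • ·)` for the chart divisors -/
theorem smul_pullback_add (a b : ℤ) (E₁ E₂ : Divisor 𝕜 M₀) :
    a • Divisor.pullback M E₁ + b • Divisor.pullback M E₂ =
      Divisor.pullback M (a • E₁ + b • E₂) := by
  rw [map_add, map_zsmul, map_zsmul]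

end Fermat.Agent.S43lib.LGC.KC
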