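/-
S43lib / LGC / KC / Ctx  (helper2)

**KC: the nodal context of a Kummer cover of a nodal chart datum.**

Base: `C₀ : NodalCtx (Unit.chartDatum D1 D2 y c₀ s x₁ x₂) g₀ g₁ g₂` on `F₀ / L` with one-sided
frames `S : OneSided D1 D2 y θ1 θ2`.  Cover: `F = F₀[h₁] = F₀[h₂]`, `h_i ^ e = u_i`, `u_i` a unit of
`O_i` (`IsKummerCover`), unramified on the generic fibre (`e ∣ ord_P u₁`), the reductions
`K_i' = K_i[ȳ_i]`, `ȳ_i ^ e = red_i u_i`, totally ramified at the node points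
(`gcd(e, ord_{x_i c} red_i u_i) = 1`).  Then (`nodalCtx_cover`) there are unique node points
`x_i' c` above `x_i c` and

  `NodalCtx (Unit.chartDatum (gaussExt H₁) (gaussExt H₂) y c₀ s x₁' x₂') g g₁' g₂'`.

(N1)/(CHART): `KC/Frame` + `LSb.Old.chartDatum_chart`;  (GLUE): the trace, `KC/Glue`;
(COUNT): the genus formula, `KC/Genus`;  degrees of the chart divisors: `KC/Pull`.
-/
import Fermat.Agent.S43lib.LGC.KC.Frame
import Fermat.Agent.S43lib.LGC.KC.Glue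
import Fermat.Agent.S43lib.LGC.KC.Pull
import Fermat.Agent.LSb.Old.CtxFields
import Fermat.Agent.S37lib.Tower.SumRam

set_option autoImplicit false
set_option linter.unusedSectionVars false
set_option linter.unusedVariables false
set_option linter.style.haveILetI false

noncomputable section

namespace Fermat.Agent.S43lib.LGC.KC

open Polynomial AlgebraicCurve Fermat.Agent.S18lib Fermat.Agent.LSb Fermat.Agent.LSb.Frame
open Fermat.Agent.LSb.Unit

variable {L : Type*} [Field L] {A : ValuationSubring L}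
variable {F₀ : Type*} [Field F₀] [Algebra L F₀]
variable {K₁ K₂ : Type*} [Field K₁] [Field K₂]
variable [Algebra (IsLocalRing.ResidueField A) K₁] [Algebra (IsLocalRing.ResidueField A) K₂]
variable {F : Type*} [Field F] [Algebra L F] [Algebra F₀ F] [IsScalarTower L F₀ F]
variable {K₁' K₂' : Type*} [Field K₁'] [Field K₂']
variable [Algebra (IsLocalRing.ResidueField A) K₁'] [Algebra K₁ K₁']
variable [IsScalarTower (IsLocalRing.ResidueField A) K₁ K₁']
variable [Algebra (IsLocalRing.ResidueField A) K₂'] [Algebra K₂ K₂']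
variable [IsScalarTower (IsLocalRing.ResidueField A) K₂ K₂']

local notation "k" => IsLocalRing.ResidueField A

/-- the data of a Kummer cover of a nodal chart datum -/
structure IsKummerCover (D1 : GaussDatum A F₀ K₁) (D2 : GaussDatum A F₀ K₂) {s : ℕ}
    (x₁ : Fin s → Place k K₁) (x₂ : Fin s → Place k K₂) (e : ℕ) (u₁ u₂ : F₀) (h₁ h₂ : F)
    (ybar₁ : K₁') (ybar₂ : K₂') (ζ : A) : Prop where
  lift₁ : KummerLift D1 e u₁ h₁ ybar₁
  lift₂ : KummerLift D2 e u₂ h₂ ybar₂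
  ratio : ∃ v : F₀, v ≠ 0 ∧ h₂ = algebraMap F₀ F v * h₁
  red_ne₁ : D1.redF u₁ ≠ 0
  red_ne₂ : D2.redF u₂ ≠ 0
  zeta_pow : ζ ^ e = 1
  zeta_prim : IsPrimitiveRoot (ζ : L) e
  zeta_prim_res : IsPrimitiveRoot (IsLocalRing.residue A ζ) e
  e_ne_zero : (e : k) ≠ 0
  unram : ∀ P : Place L F₀, (e : ℤ) ∣ P.ord u₁
  node₁ : ∀ c, IsCoprime (e : ℤ) ((x₁ c).ord (D1.redF u₁))
  node₂ : ∀ c, IsCoprime (e : ℤ) ((x₂ c).ord (D2.redF u₂))

namespace IsKummerCover

variable {D1 : GaussDatum A F₀ K₁} {D2 : GaussDatum A F₀ K₂} {s : ℕ}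
  {x₁ : Fin s → Place (IsLocalRing.ResidueField A) K₁}
  {x₂ : Fin s → Place (IsLocalRing.ResidueField A) K₂} {e : ℕ} {u₁ u₂ : F₀} {h₁ h₂ : F}
  {ybar₁ : K₁'} {ybar₂ : K₂'} {ζ : A}

theorem u₁_ne (H : IsKummerCover D1 D2 x₁ x₂ e u₁ u₂ h₁ h₂ ybar₁ ybar₂ ζ) : u₁ ≠ 0 := by
  rintro rfl
  exact H.red_ne₁ D1.redF_zero

theorem u₂_ne (H : IsKummerCover D1 D2 x₁ x₂ e u₁ u₂ h₁ h₂ ybar₁ ybar₂ ζ) : u₂ ≠ 0 := by
  rintro rfl
  exact H.red_ne₂ D2.redF_zero

theorem e_ne_zero₁ (H : IsKummerCover D1 D2 x₁ x₂ e u₁ u₂ h₁ h₂ ybar₁ ybar₂ ζ) :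
    (e : K₁) ≠ 0 := by
  rw [← map_natCast (algebraMap k K₁)]
  exact (_root_.map_ne_zero _).2 H.e_ne_zero

theorem e_ne_zero₂ (H : IsKummerCover D1 D2 x₁ x₂ e u₁ u₂ h₁ h₂ ybar₁ ybar₂ ζ) :
    (e : K₂) ≠ 0 := by
  rw [← map_natCast (algebraMap k K₂)]
  exact (_root_.map_ne_zero _).2 H.e_ne_zero

theorem e_ne_zero₀ [CharZero L] (H : IsKummerCover D1 D2 x₁ x₂ e u₁ u₂ h₁ h₂ ybar₁ ybar₂ ζ) :
    (e : F₀) ≠ 0 := by
  rw [← map_natCast (algebraMap L F₀)]
  exact (_root_.map_ne_zero _).2 (Nat.cast_ne_zero.2 H.lift₁.gen.pos.ne')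

end IsKummerCover

section Main

variable [CharZero L]
variable [HasPrincipalDivisors L F₀] [HasPrincipalDivisors (IsLocalRing.ResidueField A) K₁]
variable [HasPrincipalDivisors (IsLocalRing.ResidueField A) K₂]
variable [HasPrincipalDivisors L F] [HasPrincipalDivisors (IsLocalRing.ResidueField A) K₁']
variable [HasPrincipalDivisors (IsLocalRing.ResidueField A) K₂']
variable [Algebra.IsIntegral F₀ F] [Algebra.IsIntegral K₁ K₁'] [Algebra.IsIntegral K₂ K₂']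

variable {D1 : GaussDatum A F₀ K₁} {D2 : GaussDatum A F₀ K₂} {s : ℕ}
  {x₁ : Fin s → Place (IsLocalRing.ResidueField A) K₁}
  {x₂ : Fin s → Place (IsLocalRing.ResidueField A) K₂} {e : ℕ} {u₁ u₂ : F₀} {h₁ h₂ : F}
  {ybar₁ : K₁'} {ybar₂ : K₂'} {ζ : A}
variable {y : F₀} {c₀ : A} {n1 n2 : ℕ} {θ1 : Fin n1 → F₀} {θ2 : Fin n2 → F₀}

/-- the chart divisors of the cover are the pull-backs of those of the base -/
theorem chartDiv_cover (H₁ : KummerLift D1 e u₁ h₁ ybar₁) (H₂ : KummerLift D2 e u₂ h₂ ybar₂)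
    (x₁' : Fin s → Place k K₁') (x₂' : Fin s → Place k K₂') (a b : ℤ) :
    (chartDatum (gaussExt H₁) (gaussExt H₂) (algebraMap F₀ F y) c₀ s x₁' x₂').chartDiv a b =
      Divisor.pullback F ((chartDatum D1 D2 y c₀ s x₁ x₂).chartDiv a b) := by
  rw [chartDatum_chartDiv, chartDatum_chartDiv, polesOf_algebraMap_eq_pullback,
    zerosOf_algebraMap_sub_eq_pullback, smul_pullback_add]

theorem chartDiv₁_cover (H₁ : KummerLift D1 e u₁ h₁ ybar₁) (H₂ : KummerLift D2 e u₂ h₂ ybar₂)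
    (x₁' : Fin s → Place k K₁') (x₂' : Fin s → Place k K₂') (a b : ℤ) :
    (chartDatum (gaussExt H₁) (gaussExt H₂) (algebraMap F₀ F y) c₀ s x₁' x₂').chartDiv₁ a b =
      Divisor.pullback K₁' ((chartDatum D1 D2 y c₀ s x₁ x₂).chartDiv₁ a b) := by
  rw [chartDatum_chartDiv₁, chartDatum_chartDiv₁, redF_gaussExt_algebraMap,
    polesOf_algebraMap_eq_pullback, zerosOf_algebraMap_sub_eq_pullback, smul_pullback_add]

theorem chartDiv₂_cover (H₁ : KummerLift D1 e u₁ h₁ ybar₁) (H₂ : KummerLift D2 e u₂ h₂ ybar₂)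
    (x₁' : Fin s → Place k K₁') (x₂' : Fin s → Place k K₂') (a b : ℤ) :
    (chartDatum (gaussExt H₁) (gaussExt H₂) (algebraMap F₀ F y) c₀ s x₁' x₂').chartDiv₂ a b =
      Divisor.pullback K₂' ((chartDatum D1 D2 y c₀ s x₁ x₂).chartDiv₂ a b) := by
  rw [chartDatum_chartDiv₂, chartDatum_chartDiv₂, redF_gaussExt_algebraMap,
    polesOf_algebraMap_eq_pullback, zerosOf_algebraMap_sub_eq_pullback, smul_pullback_add]

/-- **KC**: the nodal context of a Kummer cover -/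
theorem nodalCtx_cover {g₀ g₁ g₂ : ℕ}
    (C₀ : NodalCtx (chartDatum D1 D2 y c₀ s x₁ x₂) g₀ g₁ g₂) (S : OneSided D1 D2 y θ1 θ2)
    (H : IsKummerCover D1 D2 x₁ x₂ e u₁ u₂ h₁ h₂ ybar₁ ybar₂ ζ) {g g₁' g₂' : ℕ}
    (hF : IsCurveOfGenus L F g) (hK₁ : IsCurveOfGenus k K₁' g₁')
    (hK₂ : IsCurveOfGenus k K₂' g₂') :
    ∃ (x₁' : Fin s → Place k K₁') (x₂' : Fin s → Place k K₂'),
      (∀ c, (x₁' c).restrict K₁ = x₁ c) ∧ (∀ c, (x₂' c).restrict K₂ = x₂ c) ∧
      NodalCtx (chartDatum (gaussExt H.lift₁) (gaussExt H.lift₂) (algebraMap F₀ F y) c₀ s x₁' x₂')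
        g g₁' g₂' := by
  classical
  have H₁ := H.lift₁
  have H₂ := H.lift₂
  have hepos : 0 < e := H₁.gen.pos
  have heZ : (0 : ℤ) < (e : ℤ) := by exact_mod_cast hepos
  -- finiteness, separability, fundamental identities
  haveI : FiniteDimensional F₀ F := H₁.gen.finiteDimensional
  haveI : FiniteDimensional K₁ K₁' := H₁.genbar.finiteDimensional
  haveI : FiniteDimensional K₂ K₂' := H₂.genbar.finiteDimensional
  haveI : Algebra.IsSeparable F₀ F := H₁.gen.isSeparable H.e_ne_zero₀ H.u₁_ne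
  haveI : Algebra.IsSeparable K₁ K₁' := H₁.genbar.isSeparable H.e_ne_zero₁ H.red_ne₁
  haveI : Algebra.IsSeparable K₂ K₂' := H₂.genbar.isSeparable H.e_ne_zero₂ H.red_ne₂
  haveI : FundamentalIdentity L F₀ F := S37lib.Tower.fundamentalIdentity hF.deg_eq_one
  haveI : FundamentalIdentity k K₁ K₁' := S37lib.Tower.fundamentalIdentity hK₁.deg_eq_one
  haveI : FundamentalIdentity k K₂ K₂' := S37lib.Tower.fundamentalIdentity hK₂.deg_eq_one
  have hfr₀ : Module.finrank F₀ F = e := H₁.gen.finrank_eq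
  have hfr₁ : Module.finrank K₁ K₁' = e := H₁.genbar.finrank_eq
  have hfr₂ : Module.finrank K₂ K₂' = e := H₂.genbar.finrank_eq
  have hdegF₀ := C₀.hF.deg_eq_one
  have hdegK₁ := C₀.hF₁.deg_eq_one
  have hdegK₂ := C₀.hF₂.deg_eq_one
  -- the node points of the cover
  have hex₁ : ∀ c, ∃ w : Place k K₁', w.restrict K₁ = x₁ c := fun c =>
    exists_restrict_eq (by rw [hfr₁]; exact hepos) hdegK₁ (x₁ c)
  have hex₂ : ∀ c, ∃ w : Place k K₂', w.restrict K₂ = x₂ c := fun c =>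
    exists_restrict_eq (by rw [hfr₂]; exact hepos) hdegK₂ (x₂ c)
  choose x₁' hx₁' using hex₁
  choose x₂' hx₂' using hex₂
  refine ⟨x₁', x₂', hx₁', hx₂', ?_⟩
  -- the frame of the cover
  have S' := S.cover H₁ H₂
  obtain ⟨θ', hfr⟩ := S'.exists_frame
  haveI : FiniteDimensional (IntermediateField.adjoin L {algebraMap F₀ F y}) F :=
    S'.finiteDimensional
  set Dc := chartDatum (gaussExt H₁) (gaussExt H₂) (algebraMap F₀ F y) c₀ s x₁' x₂' with hDc
  set D₀ := chartDatum D1 D2 y c₀ s x₁ x₂ with hD₀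
  -- degrees
  have hQ₁₁ : Divisor.degree Dc.Q₁₁ = (e : ℤ) * Divisor.degree D₀.Q₁₁ := by
    rw [hDc, chartDatum_Q₁₁, redF_gaussExt_algebraMap, degree_polesOf_algebraMap, hfr₁]
    rfl
  have hQ₁₂ : Divisor.degree Dc.Q₁₂ = (e : ℤ) * Divisor.degree D₀.Q₁₂ := by
    rw [hDc, chartDatum_Q₁₂, redF_gaussExt_algebraMap, degree_polesOf_algebraMap, hfr₂]
    rfl
  have hP₁ : Divisor.degree Dc.P₁ = (e : ℤ) * Divisor.degree D₀.P₁ := by
    rw [hDc, chartDatum_P₁, degree_polesOf_algebraMap, hfr₀]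
    rfl
  have hQ₂₁ : Divisor.degree Dc.Q₂₁ = Divisor.degree Dc.Q₁₁ :=
    Old.chartDatum_degree_Q₂₁ _ _ _ _ _ _ _
  have hQ₂₂ : Divisor.degree Dc.Q₂₂ = Divisor.degree Dc.Q₁₂ :=
    Old.chartDatum_degree_Q₂₂ _ _ _ _ _ _ _
  have hP₂ : Divisor.degree Dc.P₂ = Divisor.degree Dc.P₁ :=
    Old.chartDatum_degree_P₂ _ _ _ _ _ _ _
  have hle₁ : Divisor.degree Dc.Q₁₁ + Divisor.degree Dc.Q₁₂ ≤ Divisor.degree Dc.P₁ := by
    rw [hQ₁₁, hQ₁₂, hP₁, ← mul_add]
    exact mul_le_mul_of_nonneg_left C₀.deg_Q₁_le heZ.le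
  -- chart
  have hchart := fun a b f hf hf1 hf2 =>
    Old.chartDatum_chart c₀ s x₁' x₂' hfr a b f hf hf1 hf2
  -- supports
  have hx₁nm : ∀ c, x₁' c ∉ Dc.Q₁₁.support ∧ x₁' c ∉ Dc.Q₂₁.support := by
    intro c
    have h0 := C₀.x₁_not_mem c
    constructor
    · rw [hDc, chartDatum_Q₁₁, redF_gaussExt_algebraMap, polesOf_algebraMap_eq_pullback]
      exact not_mem_support_pullback (by rw [hx₁']; exact h0.1)
    · rw [hDc, chartDatum_Q₂₁, redF_gaussExt_algebraMap, zerosOf_algebraMap_sub_eq_pullback]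
      exact not_mem_support_pullback (by rw [hx₁']; exact h0.2)
  have hx₂nm : ∀ c, x₂' c ∉ Dc.Q₁₂.support ∧ x₂' c ∉ Dc.Q₂₂.support := by
    intro c
    have h0 := C₀.x₂_not_mem c
    constructor
    · rw [hDc, chartDatum_Q₁₂, redF_gaussExt_algebraMap, polesOf_algebraMap_eq_pullback]
      exact not_mem_support_pullback (by rw [hx₂']; exact h0.1)
    · rw [hDc, chartDatum_Q₂₂, redF_gaussExt_algebraMap, zerosOf_algebraMap_sub_eq_pullback]
      exact not_mem_support_pullback (by rw [hx₂']; exact h0.2)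
  -- genera
  have hζF : IsPrimitiveRoot (ζ : L) e := H.zeta_prim
  have heL : (e : L) ≠ 0 := Nat.cast_ne_zero.2 hepos.ne'
  have hgen := genus_of_unramified H₁.gen H.u₁_ne C₀.hF hF hζF heL H.unram
  have hg₁ := genus_ge_of_nodes H₁.genbar H.red_ne₁ C₀.hF₁ hK₁ H.zeta_prim_res H.e_ne_zero
    C₀.x₁_injective H.node₁
  have hg₂ := genus_ge_of_nodes H₂.genbar H.red_ne₂ C₀.hF₂ hK₂ H.zeta_prim_res H.e_ne_zero
    C₀.x₂_injective H.node₂
  exact
    { hF := hF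
      hF₁ := hK₁
      hF₂ := hK₂
      rankOne := C₀.rankOne
      hD := hfr.hasOrthonormalBasesS
      P₁_nonneg := Old.chartDatum_P₁_nonneg _ _ _ _ _ _ _
      P₂_nonneg := Old.chartDatum_P₂_nonneg _ _ _ _ _ _ _
      P_disjoint := Old.chartDatum_P_disjoint _ _ _ _ _ _ _
      Q₁₁_nonneg := Old.chartDatum_Q₁₁_nonneg _ _ _ _ _ _ _
      Q₂₁_nonneg := Old.chartDatum_Q₂₁_nonneg _ _ _ _ _ _ _
      Q₁₂_nonneg := Old.chartDatum_Q₁₂_nonneg _ _ _ _ _ _ _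
      Q₂₂_nonneg := Old.chartDatum_Q₂₂_nonneg _ _ _ _ _ _ _
      Q₁_disjoint := Old.chartDatum_Q₁_disjoint _ _ _ _ _ _ _
      Q₂_disjoint := Old.chartDatum_Q₂_disjoint _ _ _ _ _ _ _
      deg_Q₁₁_pos := by rw [hQ₁₁]; exact mul_pos heZ C₀.deg_Q₁₁_pos
      deg_Q₂₁_pos := by rw [hQ₂₁, hQ₁₁]; exact mul_pos heZ C₀.deg_Q₁₁_pos
      deg_Q₁₂_pos := by rw [hQ₁₂]; exact mul_pos heZ C₀.deg_Q₁₂_pos
      deg_Q₂₂_pos := by rw [hQ₂₂, hQ₁₂]; exact mul_pos heZ C₀.deg_Q₁₂_pos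
      deg_Q₁_le := hle₁
      deg_Q₂_le := by rw [hQ₂₁, hQ₂₂, hP₂]; exact hle₁
      x₁_injective := fun c c' hcc' => C₀.x₁_injective (by
        show x₁ c = x₁ c'
        rw [← hx₁' c, ← hx₁' c']
        exact congrArg (fun w => Place.restrict K₁ w) hcc')
      x₂_injective := fun c c' hcc' => C₀.x₂_injective (by
        show x₂ c = x₂ c'
        rw [← hx₂' c, ← hx₂' c']
        exact congrArg (fun w => Place.restrict K₂ w) hcc')
      x₁_not_mem := hx₁nm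
      x₂_not_mem := hx₂nm
      chart₁ := fun a b f hf hf1 hf2 => (hchart a b f hf hf1 hf2).1
      chart₂ := fun a b f hf hf1 hf2 => (hchart a b f hf hf1 hf2).2
      glue := by
        intro a b f hf hf1 hf2 c
        obtain ⟨hφ₁, hφ₂⟩ := hchart a b f hf hf1 hf2
        -- values of the reductions at the node points
        have hz₁ : (Dc.chartDiv₁ a b) (x₁' c) ≤ 0 := by
          have h1 := Finsupp.notMem_support_iff.1 (hx₁nm c).1
          have h2 := Finsupp.notMem_support_iff.1 (hx₁nm c).2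
          show (((a : ℤ) • Dc.Q₁₁ + (b : ℤ) • Dc.Q₂₁ : Divisor k K₁') (x₁' c)) ≤ 0
          rw [Finsupp.add_apply, Finsupp.smul_apply, Finsupp.smul_apply, h1, h2]
          simp
        have hz₂ : (Dc.chartDiv₂ a b) (x₂' c) ≤ 0 := by
          have h1 := Finsupp.notMem_support_iff.1 (hx₂nm c).1
          have h2 := Finsupp.notMem_support_iff.1 (hx₂nm c).2
          show (((a : ℤ) • Dc.Q₁₂ + (b : ℤ) • Dc.Q₂₂ : Divisor k K₂') (x₂' c)) ≤ 0
          rw [Finsupp.add_apply, Finsupp.smul_apply, Finsupp.smul_apply, h1, h2]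
          simp
        obtain ⟨α₁, hα₁⟩ := exists_hasValueAt_of_mem_rr (hK₁.deg_eq_one _) hφ₁ hz₁
        obtain ⟨α₂, hα₂⟩ := exists_hasValueAt_of_mem_rr (hK₂.deg_eq_one _) hφ₂ hz₂
        -- the trace
        obtain ⟨v, hv, hh⟩ := H.ratio
        have hfE : f ∈ riemannRochSpace (Divisor.pullback F (D₀.chartDiv a b)) := by
          rw [← chartDiv_cover H₁ H₂ x₁' x₂' a b]
          exact hf
        obtain ⟨t, htE, ht1, ht2⟩ := exists_trace_datum H₁ H₂ hv hh ζ H.zeta_pow H.zeta_prim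
          H.u₁_ne hdegF₀ (D₀.chartDiv a b) hfE hf1 hf2
        have htO1 := (trace_mem_and_red H₁ ζ H.zeta_pow hf1 ht1).1
        have htO2 := (trace_mem_and_red H₂ ζ H.zeta_pow hf2 ht2).1
        obtain ⟨β, hβ₁, hβ₂⟩ := C₀.glue a b t htE htO1 htO2 c
        have hv₁ := hasValueAt_red_trace H₁ ζ H.zeta_pow hK₁.deg_eq_one hdegK₁ hf1 ht1
          (w := x₁' c) (by rw [hx₁']; exact H.node₁ c) hα₁
        have hv₂ := hasValueAt_red_trace H₂ ζ H.zeta_pow hK₂.deg_eq_one hdegK₂ hf2 ht2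
          (w := x₂' c) (by rw [hx₂']; exact H.node₂ c) hα₂
        rw [hx₁'] at hv₁
        rw [hx₂'] at hv₂
        have e1 : (e : k) * α₁ = β := hv₁.unique hβ₁
        have e2 : (e : k) * α₂ = β := hv₂.unique hβ₂
        have e3 : α₁ = α₂ := mul_left_cancel₀ H.e_ne_zero (e1.trans e2.symm)
        refine ⟨α₁, hα₁, ?_⟩
        rw [e3]
        exact hα₂
      count := count_of_genera hepos hgen hg₁ hg₂ C₀.count
      s_pos := C₀.s_pos }

end Main

end Fermat.Agent.S43lib.LGC.KC
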