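/-
S43lib / LGC / KC / KummerField (helper1, brick (K) for helper2's KC-Mod).

The Kummer extension `K₀(u^{1/e})` inside the algebraic closure of `K₀`:
* `kumRoot e u`  : a chosen `e`-th root of `u` in `AlgebraicClosure K₀`;
* `kumField e u` : the intermediate field `K₀⟮kumRoot e u⟯`;
* `kumGen e u`   : the generator, as an element of `kumField e u`;
* `isKummerGen_kumGen` : if `X ^ e - C u` is irreducible, `kumGen e u` is a Kummer generator
  (`IsKummerGen e u (kumGen e u)`);
* `irreducible_X_pow_sub_C_of_ord` : irreducibility of `X ^ (p ^ t) - C u` for `p` odd, `u` not a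
  `p`-th power.
-/
import Mathlib
import Fermat.Agent.S43lib.LGC.KC.Gauss

set_option autoImplicit false
set_option linter.style.haveILetI false
set_option linter.unusedSectionVars false

noncomputable section

namespace Fermat.Agent.S43lib.LGC.KC

open Polynomial IntermediateField

variable {K₀ : Type*} [Field K₀]

/-- A chosen `e`-th root of `u` in the algebraic closure of `K₀` (junk value `0` for `e = 0`). -/
def kumRoot (e : ℕ) (u : K₀) : AlgebraicClosure K₀ :=
  if he : 0 < e then
    (IsAlgClosed.exists_pow_nat_eq (algebraMap K₀ (AlgebraicClosure K₀) u) he).choose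
  else 0

theorem kumRoot_pow {e : ℕ} (he : 0 < e) (u : K₀) :
    kumRoot e u ^ e = algebraMap K₀ (AlgebraicClosure K₀) u := by
  unfold kumRoot
  rw [dif_pos he]
  exact (IsAlgClosed.exists_pow_nat_eq (algebraMap K₀ (AlgebraicClosure K₀) u) he).choose_spec

/-- The Kummer field `K₀(u^{1/e})`. -/
def kumField (e : ℕ) (u : K₀) : IntermediateField K₀ (AlgebraicClosure K₀) :=
  K₀⟮kumRoot e u⟯

/-- The generator `u^{1/e}` of the Kummer field. -/
def kumGen (e : ℕ) (u : K₀) : kumField e u :=
  AdjoinSimple.gen K₀ (kumRoot e u)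

@[simp] theorem coe_kumGen (e : ℕ) (u : K₀) :
    ((kumGen e u : kumField e u) : AlgebraicClosure K₀) = kumRoot e u := rfl

theorem kumGen_pow {e : ℕ} (he : 0 < e) (u : K₀) :
    kumGen e u ^ e = algebraMap K₀ (kumField e u) u := by
  apply Subtype.ext
  rw [SubmonoidClass.coe_pow, coe_kumGen, kumRoot_pow he]
  rfl

section Instances

variable {k : Type*} [Field k] [Algebra k K₀] (e : ℕ) (u : K₀)

/-! The instances `Algebra k ↥(kumField e u)` and `IsScalarTower k K₀ ↥(kumField e u)` are found
by instance resolution (`AlgebraicClosure.instAlgebra`, `IntermediateField.algebra'`,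
`IntermediateField.isScalarTower`); nothing has to be declared. -/

example : Algebra k ↥(kumField e u) := inferInstance
example : IsScalarTower k K₀ ↥(kumField e u) := inferInstance
example : Algebra K₀ ↥(kumField e u) := inferInstance

theorem algebraMap_kumField_apply (a : k) :
    ((algebraMap k (kumField e u) a : kumField e u) : AlgebraicClosure K₀) =
      algebraMap K₀ (AlgebraicClosure K₀) (algebraMap k K₀ a) := by
  rw [IsScalarTower.algebraMap_apply k K₀ (kumField e u)]
  rfl

end Instances

theorem isIntegral_kumRoot (e : ℕ) (u : K₀) : IsIntegral K₀ (kumRoot e u) :=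
  (AlgebraicClosure.isAlgebraic K₀).isIntegral.isIntegral _

theorem finiteDimensional_kumField (e : ℕ) (u : K₀) : FiniteDimensional K₀ (kumField e u) :=
  IntermediateField.adjoin.finiteDimensional (isIntegral_kumRoot e u)

/-- **(K)** the generator of the Kummer field is a Kummer generator. -/
theorem isKummerGen_kumGen {e : ℕ} {u : K₀} (he : 0 < e)
    (hirr : Irreducible (X ^ e - C u : K₀[X])) : IsKummerGen e u (kumGen e u) where
  pos := he
  pow_eq := kumGen_pow he u
  gen := by
    intro f
    have hα := isIntegral_kumRoot e u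
    obtain ⟨p, hp⟩ := (IntermediateField.adjoin.powerBasis hα).exists_eq_aeval' f
    refine ⟨p, ?_⟩
    rw [hp, IntermediateField.adjoin.powerBasis_gen]
    rfl
  dvd_of_aeval_eq_zero := by
    intro p hp
    have h0 : aeval (kumGen e u) (X ^ e - C u : K₀[X]) = 0 := by
      rw [map_sub, map_pow, aeval_X, aeval_C, kumGen_pow he u, sub_self]
    have hmin : (X ^ e - C u : K₀[X]) = minpoly K₀ (kumGen e u) :=
      minpoly.eq_of_irreducible_of_monic hirr h0 (monic_X_pow_sub_C u he.ne')
    rw [hmin]
    exact minpoly.dvd K₀ _ hp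

/-- Irreducibility of `X ^ (p ^ t) - C u` (`p` odd prime, `u` not a `p`-th power). -/
theorem irreducible_X_pow_sub_C_of_ord {p t : ℕ} (hp : p.Prime) (hp2 : p ≠ 2) (ht : t ≠ 0)
    {u : K₀} (hu : ∀ b : K₀, b ^ p ≠ u) : Irreducible (X ^ (p ^ t) - C u : K₀[X]) :=
  (X_pow_sub_C_irreducible_iff_of_prime_pow hp hp2 ht).mpr hu

/-- The degree of the Kummer field. -/
theorem finrank_kumField {e : ℕ} {u : K₀} (he : 0 < e)
    (hirr : Irreducible (X ^ e - C u : K₀[X])) : Module.finrank K₀ (kumField e u) = e := by
  have h0 : aeval (kumRoot e u) (X ^ e - C u : K₀[X]) = 0 := by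
    rw [map_sub, map_pow, aeval_X, aeval_C, kumRoot_pow he u, sub_self]
  have hmin : (X ^ e - C u : K₀[X]) = minpoly K₀ (kumRoot e u) :=
    minpoly.eq_of_irreducible_of_monic hirr h0 (monic_X_pow_sub_C u he.ne')
  unfold kumField
  rw [IntermediateField.adjoin.finrank (isIntegral_kumRoot e u), ← hmin, natDegree_X_pow_sub_C]

end Fermat.Agent.S43lib.LGC.KC
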