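/-
S43lib / LGC / KC / CurveGen (helper1, brick (G) for helper2's KC-Mod).

`exists_isCurveOfGenus_of_isKummerGen`: a Kummer extension `K' = K₀[y]`, `y ^ e = u`, `e` prime to
the characteristic, of a function field `K₀ / k` (finite separable over `k(x)`, `k` algebraically
closed) is again a curve (`IsCurveOfGenus k K' g'` for some `g'`).

Route: `K' / K₀` is finite (spanned by the powers of `y`) and separable (`X ^ e - C u` is
separable), so `K'` is finite separable over `k(x)`; transfer to `k(x')`, `x'` the image of `x`, and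
apply `S18lib.RRgen.Canonical.exists_isCurveOfGenus_of_transcendental`.
-/
import Mathlib
import Fermat.Agent.S43lib.LGC.KC.Basic
import Fermat.Agent.S43lib.LGC.KC.KummerField
import Fermat.Agent.S18lib.RRgen.Canonical

set_option autoImplicit false
set_option linter.style.haveILetI false
set_option linter.unusedSectionVars false

noncomputable section

namespace Fermat.Agent.S43lib.LGC.KC

open Polynomial IntermediateField Fermat.Agent.S18lib

section KummerFinSep

variable {E₀ E : Type*} [Field E₀] [Field E] [Algebra E₀ E] {e : ℕ} {u : E₀} {h : E}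

theorem IsKummerGen.adjoin_eq_top (H : IsKummerGen e u h) :
    Algebra.adjoin E₀ {h} = ⊤ := by
  rw [eq_top_iff]
  intro f _
  obtain ⟨p, hp⟩ := H.gen f
  rw [Algebra.adjoin_singleton_eq_range_aeval]
  exact ⟨p, hp⟩

theorem IsKummerGen.intermediateField_adjoin_eq_top (H : IsKummerGen e u h) :
    E₀⟮h⟯ = ⊤ := by
  rw [eq_top_iff]
  intro f _
  have h1 : f ∈ Algebra.adjoin E₀ {h} := by rw [H.adjoin_eq_top]; exact Algebra.mem_top
  exact IntermediateField.algebra_adjoin_le_adjoin E₀ _ h1

end KummerFinSep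

section Transfer

variable {k K₀ K' : Type*} [Field k] [Field K₀] [Field K'] [Algebra k K₀] [Algebra k K']
  [Algebra K₀ K'] [IsScalarTower k K₀ K']

/-- The isomorphism `k(x) ≃ k(x')`, `x'` the image of `x` in an extension. -/
def adjoinMapEquiv (x : K₀) : k⟮x⟯ ≃ₐ[k] k⟮algebraMap K₀ K' x⟯ :=
  (IntermediateField.equivMap k⟮x⟯ (IsScalarTower.toAlgHom k K₀ K')).trans
    (IntermediateField.equivOfEq (by
      rw [IntermediateField.adjoin_map, Set.image_singleton]
      rfl))

theorem coe_adjoinMapEquiv (x : K₀) (a : k⟮x⟯) :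
    ((adjoinMapEquiv (k := k) (K' := K') x a : k⟮algebraMap K₀ K' x⟯) : K') =
      algebraMap K₀ K' (a : K₀) := rfl

/-- Finiteness and separability of `K' / k(x')` from those of `K' / K₀` and `K₀ / k(x)`. -/
theorem finite_separable_adjoin_of_tower (x : K₀) [FiniteDimensional k⟮x⟯ K₀]
    [Algebra.IsSeparable k⟮x⟯ K₀] [FiniteDimensional K₀ K'] [Algebra.IsSeparable K₀ K'] :
    FiniteDimensional k⟮algebraMap K₀ K' x⟯ K' ∧
      Algebra.IsSeparable k⟮algebraMap K₀ K' x⟯ K' := by
  haveI : IsScalarTower k⟮x⟯ K₀ K' := inferInstance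
  haveI hfin : FiniteDimensional k⟮x⟯ K' := Module.Finite.trans K₀ K'
  haveI hsep : Algebra.IsSeparable k⟮x⟯ K' := Algebra.IsSeparable.trans k⟮x⟯ K₀ K'
  have hcomp : (algebraMap k⟮algebraMap K₀ K' x⟯ K').comp
      ((adjoinMapEquiv (k := k) (K' := K') x).toRingEquiv : k⟮x⟯ →+* k⟮algebraMap K₀ K' x⟯) =
      ((RingEquiv.refl K' : K' ≃+* K') : K' →+* K').comp (algebraMap k⟮x⟯ K') := by
    ext a
    rfl
  exact ⟨Module.Finite.of_equiv_equiv (adjoinMapEquiv (k := k) (K' := K') x).toRingEquiv
      (RingEquiv.refl K') hcomp,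
    Algebra.IsSeparable.of_equiv_equiv (adjoinMapEquiv (k := k) (K' := K') x).toRingEquiv
      (RingEquiv.refl K') hcomp⟩

end Transfer

/-- **(G)** a Kummer extension (exponent prime to the characteristic) of a function field over an
algebraically closed field is a curve. -/
theorem exists_isCurveOfGenus_of_isKummerGen {k K₀ K' : Type*} [Field k] [IsAlgClosed k]
    [Field K₀] [Field K'] [Algebra k K₀] [Algebra k K'] [Algebra K₀ K'] [IsScalarTower k K₀ K']
    {x : K₀} (hx : Transcendental k x) [FiniteDimensional k⟮x⟯ K₀] [Algebra.IsSeparable k⟮x⟯ K₀]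
    {e : ℕ} (he : (e : k) ≠ 0) {u : K₀} (hu : u ≠ 0) {y : K'} (H : IsKummerGen e u y) :
    ∃ g' : ℕ, IsCurveOfGenus k K' g' := by
  have he' : (e : K₀) ≠ 0 := by
    rw [← map_natCast (algebraMap k K₀)]
    exact (map_ne_zero_iff _ (algebraMap k K₀).injective).mpr he
  haveI : FiniteDimensional K₀ K' := H.finiteDimensional
  haveI : Algebra.IsSeparable K₀ K' := H.isSeparable he' hu
  obtain ⟨hfin, hsep⟩ := finite_separable_adjoin_of_tower (k := k) (K' := K') x
  have hx' : Transcendental k (algebraMap K₀ K' x) :=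
    (transcendental_algebraMap_iff (algebraMap K₀ K').injective).mpr hx
  obtain ⟨g, hg, _⟩ := RRgen.Canonical.exists_isCurveOfGenus_of_transcendental k hx'
  exact ⟨g, hg⟩

/-- **(G) + (K)** the Kummer field `K₀(u^{1/e})` of a function field is a curve. -/
theorem exists_isCurveOfGenus_kumField {k K₀ : Type*} [Field k] [IsAlgClosed k]
    [Field K₀] [Algebra k K₀] {x : K₀} (hx : Transcendental k x) [FiniteDimensional k⟮x⟯ K₀]
    [Algebra.IsSeparable k⟮x⟯ K₀] {e : ℕ} (he : (e : k) ≠ 0) {u : K₀} (hu : u ≠ 0)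
    (hirr : Irreducible (X ^ e - C u : K₀[X])) :
    ∃ g' : ℕ, IsCurveOfGenus k (kumField e u) g' := by
  have hpos : 0 < e := by
    rcases Nat.eq_zero_or_pos e with h | h
    · exact absurd (by rw [h, Nat.cast_zero]) he
    · exact h
  exact exists_isCurveOfGenus_of_isKummerGen hx he hu (isKummerGen_kumGen hpos hirr)

end Fermat.Agent.S43lib.LGC.KC
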