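/-
S43lib / LGC / KC / Action  (helper2)

**The deck transformation of a Kummer-type extension and its reduction.**

* `IsKummerGen.deck H ζ hζ : E ≃ₐ[E₀] E`, `h ↦ ζ h` for `ζ ∈ E₀`, `ζ ^ e = 1`;
* for a `KummerLift` and `ζ ∈ A`: the deck transformation `δ` of `F / F₀` preserves the valuation ring
  of `gaussExt H`, and `red (δ f) = δ̄ (red f)` where `δ̄` is the deck transformation `ȳ ↦ ζ̄ ȳ`
  of `K / K₀` (`redF_gaussExt_deck`).
-/
import Fermat.Agent.S43lib.LGC.KC.GaussApi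

set_option autoImplicit false
set_option linter.unusedSectionVars false
set_option linter.unusedVariables false

noncomputable section

namespace Fermat.Agent.S43lib.LGC.KC

open Polynomial Fermat.Agent.S18lib

namespace IsKummerGen

variable {E₀ E : Type*} [Field E₀] [Field E] [Algebra E₀ E] {e : ℕ} {u : E₀} {h : E}

/-- `aeval h` is surjective -/
theorem aeval_surjective (H : IsKummerGen e u h) :
    Function.Surjective (aeval h : E₀[X] →ₐ[E₀] E) := H.gen

/-- the kernel of `aeval h` is contained in the kernel of every evaluation at a root of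
`X ^ e - u` -/
theorem ker_aeval_le (H : IsKummerGen e u h) {E' : Type*} [Field E'] [Algebra E₀ E'] {h' : E'}
    (hh' : h' ^ e = algebraMap E₀ E' u) :
    RingHom.ker ((aeval h : E₀[X] →ₐ[E₀] E) : E₀[X] →+* E) ≤
      RingHom.ker ((aeval h' : E₀[X] →ₐ[E₀] E') : E₀[X] →+* E') := by
  intro p hp
  rw [RingHom.mem_ker] at hp ⊢
  obtain ⟨q, rfl⟩ := H.dvd_of_aeval_eq_zero p hp
  show aeval h' ((X ^ e - C u) * q) = 0
  rw [map_mul, map_sub, map_pow, aeval_X, aeval_C, hh', sub_self, zero_mul]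

/-- the ring homomorphism `E → E'` sending `h` to a root `h'` of `X ^ e - u` -/
def liftRing (H : IsKummerGen e u h) {E' : Type*} [Field E'] [Algebra E₀ E'] {h' : E'}
    (hh' : h' ^ e = algebraMap E₀ E' u) : E →+* E' :=
  RingHom.liftOfSurjective ((aeval h : E₀[X] →ₐ[E₀] E) : E₀[X] →+* E) H.aeval_surjective
    ⟨((aeval h' : E₀[X] →ₐ[E₀] E') : E₀[X] →+* E'), H.ker_aeval_le hh'⟩

theorem liftRing_aeval (H : IsKummerGen e u h) {E' : Type*} [Field E'] [Algebra E₀ E'] {h' : E'}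
    (hh' : h' ^ e = algebraMap E₀ E' u) (p : E₀[X]) :
    H.liftRing hh' (aeval h p) = aeval h' p :=
  RingHom.liftOfSurjective_comp_apply _ H.aeval_surjective
    ⟨((aeval h' : E₀[X] →ₐ[E₀] E') : E₀[X] →+* E'), H.ker_aeval_le hh'⟩ p

theorem liftRing_algebraMap (H : IsKummerGen e u h) {E' : Type*} [Field E'] [Algebra E₀ E']
    {h' : E'} (hh' : h' ^ e = algebraMap E₀ E' u) (a : E₀) :
    H.liftRing hh' (algebraMap E₀ E a) = algebraMap E₀ E' a := by
  have := H.liftRing_aeval hh' (C a)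
  rwa [aeval_C, aeval_C] at this

theorem liftRing_gen (H : IsKummerGen e u h) {E' : Type*} [Field E'] [Algebra E₀ E'] {h' : E'}
    (hh' : h' ^ e = algebraMap E₀ E' u) : H.liftRing hh' h = h' := by
  have := H.liftRing_aeval hh' X
  rwa [aeval_X, aeval_X] at this

/-- the algebra homomorphism `E → E'` sending `h` to `h'` -/
def liftAlg (H : IsKummerGen e u h) {E' : Type*} [Field E'] [Algebra E₀ E'] {h' : E'}
    (hh' : h' ^ e = algebraMap E₀ E' u) : E →ₐ[E₀] E' :=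
  { H.liftRing hh' with commutes' := H.liftRing_algebraMap hh' }

@[simp] theorem liftAlg_gen (H : IsKummerGen e u h) {E' : Type*} [Field E'] [Algebra E₀ E']
    {h' : E'} (hh' : h' ^ e = algebraMap E₀ E' u) : H.liftAlg hh' h = h' := H.liftRing_gen hh'

theorem liftAlg_aeval (H : IsKummerGen e u h) {E' : Type*} [Field E'] [Algebra E₀ E'] {h' : E'}
    (hh' : h' ^ e = algebraMap E₀ E' u) (p : E₀[X]) :
    H.liftAlg hh' (aeval h p) = aeval h' p := H.liftRing_aeval hh' p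

/-- two algebra homomorphisms out of `E` agreeing at `h` are equal -/
theorem algHom_ext (H : IsKummerGen e u h) {E' : Type*} [Semiring E'] [Algebra E₀ E']
    {φ ψ : E →ₐ[E₀] E'} (hφψ : φ h = ψ h) : φ = ψ := by
  ext f
  obtain ⟨p, rfl⟩ := H.gen f
  rw [← aeval_algHom_apply, ← aeval_algHom_apply, hφψ]

theorem pow_mul_root (H : IsKummerGen e u h) {ζ : E₀} (hζ : ζ ^ e = 1) :
    (algebraMap E₀ E ζ * h) ^ e = algebraMap E₀ E u := by
  rw [mul_pow, ← map_pow, hζ, map_one, one_mul, H.pow_eq]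

/-- the deck transformation `h ↦ ζ h` as an algebra endomorphism -/
def deckHom (H : IsKummerGen e u h) (ζ : E₀) (hζ : ζ ^ e = 1) : E →ₐ[E₀] E :=
  H.liftAlg (H.pow_mul_root hζ)

@[simp] theorem deckHom_gen (H : IsKummerGen e u h) (ζ : E₀) (hζ : ζ ^ e = 1) :
    H.deckHom ζ hζ h = algebraMap E₀ E ζ * h := H.liftAlg_gen _

theorem deckHom_comp (H : IsKummerGen e u h) (ζ ζ' : E₀) (hζ : ζ ^ e = 1) (hζ' : ζ' ^ e = 1) :
    (H.deckHom ζ hζ).comp (H.deckHom ζ' hζ') =
      H.deckHom (ζ * ζ') (by rw [mul_pow, hζ, hζ', one_mul]) := by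
  apply H.algHom_ext
  rw [AlgHom.comp_apply, deckHom_gen, map_mul, AlgHom.commutes, deckHom_gen, deckHom_gen, map_mul]
  ring

theorem deckHom_one (H : IsKummerGen e u h) : H.deckHom 1 (one_pow e) = AlgHom.id E₀ E := by
  apply H.algHom_ext
  rw [deckHom_gen, map_one, one_mul, AlgHom.id_apply]

/-- the deck transformation `h ↦ ζ h` -/
def deck (H : IsKummerGen e u h) (ζ : E₀) (hζ : ζ ^ e = 1) : E ≃ₐ[E₀] E :=
  have hζ0 : ζ ≠ 0 := by
    rintro rfl
    rw [zero_pow H.pos.ne'] at hζ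
    exact zero_ne_one hζ
  have hζi : ζ⁻¹ ^ e = 1 := by rw [inv_pow, hζ, inv_one]
  AlgEquiv.ofAlgHom (H.deckHom ζ hζ) (H.deckHom ζ⁻¹ hζi)
    (by
      rw [H.deckHom_comp ζ ζ⁻¹ hζ hζi]
      have : H.deckHom (ζ * ζ⁻¹) (by rw [mul_pow, hζ, hζi, one_mul]) = H.deckHom 1 (one_pow e) := by
        congr 1
        exact mul_inv_cancel₀ hζ0
      rw [this, H.deckHom_one])
    (by
      rw [H.deckHom_comp ζ⁻¹ ζ hζi hζ]
      have : H.deckHom (ζ⁻¹ * ζ) (by rw [mul_pow, hζ, hζi, one_mul]) = H.deckHom 1 (one_pow e) := by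
        congr 1
        exact inv_mul_cancel₀ hζ0
      rw [this, H.deckHom_one])

@[simp] theorem deck_gen (H : IsKummerGen e u h) (ζ : E₀) (hζ : ζ ^ e = 1) :
    H.deck ζ hζ h = algebraMap E₀ E ζ * h := H.deckHom_gen ζ hζ

theorem deck_aeval (H : IsKummerGen e u h) (ζ : E₀) (hζ : ζ ^ e = 1) (p : E₀[X]) :
    H.deck ζ hζ (aeval h p) = aeval (algebraMap E₀ E ζ * h) p :=
  H.liftAlg_aeval (H.pow_mul_root hζ) p

end IsKummerGen

variable {L : Type*} [Field L] {A : ValuationSubring L}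
variable {F₀ : Type*} [Field F₀] [Algebra L F₀]
variable {K₀ : Type*} [Field K₀] [Algebra (IsLocalRing.ResidueField A) K₀]
variable {F : Type*} [Field F] [Algebra L F] [Algebra F₀ F] [IsScalarTower L F₀ F]
variable {K : Type*} [Field K] [Algebra (IsLocalRing.ResidueField A) K] [Algebra K₀ K]
variable [IsScalarTower (IsLocalRing.ResidueField A) K₀ K]
variable {D₀ : GaussDatum A F₀ K₀} {h : F} {ybar : K} {e : ℕ} {u : F₀}

local notation "k" => IsLocalRing.ResidueField A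

/-- the root of unity in `F₀` -/
abbrev zetaF (ζ : A) : F₀ := algebraMap L F₀ (ζ : L)

/-- the root of unity in `K₀` -/
abbrev zetaK (ζ : A) : K₀ := algebraMap k K₀ (IsLocalRing.residue A ζ)

theorem zetaF_pow {ζ : A} (hζ : ζ ^ e = 1) : (zetaF ζ : F₀) ^ e = 1 := by
  rw [zetaF, ← map_pow]
  have : ((ζ : L)) ^ e = 1 := by
    have := congrArg Subtype.val hζ
    simpa using this
  rw [this, map_one]

theorem zetaK_pow {ζ : A} (hζ : ζ ^ e = 1) : (zetaK ζ : K₀) ^ e = 1 := by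
  rw [zetaK, ← map_pow, ← map_pow, hζ, map_one, map_one]

theorem zetaF_mem (D₀ : GaussDatum A F₀ K₀) (ζ : A) : (zetaF ζ : F₀) ∈ D₀.O :=
  (D₀.algebraMap_mem_iff _).2 ζ.2

/-- the deck transformation of `F / F₀` attached to `ζ ∈ A` -/
def deckF (H : KummerLift D₀ e u h ybar) (ζ : A) (hζ : ζ ^ e = 1) : F ≃ₐ[F₀] F :=
  H.gen.deck (zetaF ζ) (zetaF_pow hζ)

/-- the deck transformation of `K / K₀` attached to `ζ ∈ A` -/
def deckK (H : KummerLift D₀ e u h ybar) (ζ : A) (hζ : ζ ^ e = 1) : K ≃ₐ[K₀] K :=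
  H.genbar.deck (zetaK ζ) (zetaK_pow hζ)

/-- the substitution `X ↦ ζ X` on `D₀.O[X]` -/
def scalePoly (D₀ : GaussDatum A F₀ K₀) (ζ : A) (p : (D₀.O)[X]) : (D₀.O)[X] :=
  p.comp (C ⟨zetaF ζ, zetaF_mem D₀ ζ⟩ * X)

theorem psi_scalePoly (ζ : A) (p : (D₀.O)[X]) :
    psi D₀ h (scalePoly D₀ ζ p) = aeval (algebraMap F₀ F (zetaF ζ) * h) (p.map D₀.O.subtype) := by
  rw [psi_apply, scalePoly, Polynomial.map_comp, Polynomial.map_mul, Polynomial.map_C,
    Polynomial.map_X, aeval_comp, map_mul, aeval_C, aeval_X]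
  rfl

theorem phi_scalePoly (ζ : A) (p : (D₀.O)[X]) :
    phi D₀ ybar (scalePoly D₀ ζ p) = aeval (algebraMap K₀ K (zetaK ζ) * ybar) (p.map D₀.red) := by
  rw [phi_apply, scalePoly, Polynomial.map_comp, Polynomial.map_mul, Polynomial.map_C,
    Polynomial.map_X, aeval_comp, map_mul, aeval_C, aeval_X]
  congr 3
  exact congrArg (algebraMap K₀ K) (D₀.red_algebraMap ζ (zetaF_mem D₀ ζ))

theorem deckF_psi (H : KummerLift D₀ e u h ybar) (ζ : A) (hζ : ζ ^ e = 1) (p : (D₀.O)[X]) :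
    deckF H ζ hζ (psi D₀ h p) = psi D₀ h (scalePoly D₀ ζ p) := by
  rw [psi_scalePoly, psi_apply]
  exact H.gen.deck_aeval _ _ _

theorem deckK_phi (H : KummerLift D₀ e u h ybar) (ζ : A) (hζ : ζ ^ e = 1) (p : (D₀.O)[X]) :
    deckK H ζ hζ (phi D₀ ybar p) = phi D₀ ybar (scalePoly D₀ ζ p) := by
  rw [phi_scalePoly, phi_apply]
  exact H.genbar.deck_aeval _ _ _

/-- the deck transformation preserves the valuation ring -/
theorem deckF_mem_gaussExt (H : KummerLift D₀ e u h ybar) (ζ : A) (hζ : ζ ^ e = 1) {f : F}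
    (hf : f ∈ (gaussExt H).O) : deckF H ζ hζ f ∈ (gaussExt H).O := by
  obtain ⟨p, rfl⟩ := (mem_gaussExt H).1 hf
  rw [deckF_psi]
  exact psi_mem_gaussExt H _

/-- **reduction commutes with the deck transformations** -/
theorem redF_gaussExt_deckF (H : KummerLift D₀ e u h ybar) (ζ : A) (hζ : ζ ^ e = 1) {f : F}
    (hf : f ∈ (gaussExt H).O) :
    (gaussExt H).redF (deckF H ζ hζ f) = deckK H ζ hζ ((gaussExt H).redF f) := by
  obtain ⟨p, rfl⟩ := (mem_gaussExt H).1 hf
  rw [deckF_psi, redF_gaussExt_psi, redF_gaussExt_psi, deckK_phi]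

theorem deckF_mem_gaussExt_iff (H : KummerLift D₀ e u h ybar) (ζ : A) (hζ : ζ ^ e = 1) (f : F) :
    deckF H ζ hζ f ∈ (gaussExt H).O ↔ f ∈ (gaussExt H).O := by
  refine ⟨fun hf => ?_, deckF_mem_gaussExt H ζ hζ⟩
  by_contra hfn
  -- then `f⁻¹` lies in the maximal ideal, hence so does its image
  have hf0 : f ≠ 0 := by
    rintro rfl
    exact hfn (ValuationSubring.zero_mem _)
  have hinv : f⁻¹ ∈ (gaussExt H).O :=
    ((gaussExt H).O.mem_or_inv_mem f).resolve_left hfn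
  have hred : (gaussExt H).redF f⁻¹ = 0 := by
    by_contra hne
    have := (gaussExt H).inv_mem_of_redF_ne_zero hne
    rw [inv_inv] at this
    exact hfn this
  have h1 := redF_gaussExt_deckF H ζ hζ hinv
  rw [hred, map_zero, map_inv₀] at h1
  have h2 : (gaussExt H).redF (deckF H ζ hζ f) ≠ 0 := by
    intro h0
    have h3 := (gaussExt H).redF_mul hf (deckF_mem_gaussExt H ζ hζ hinv)
    rw [← map_mul, mul_inv_cancel₀ hf0, map_one, map_inv₀, h1, mul_zero] at h3
    have h4 : (gaussExt H).redF (1 : F) = 1 := by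
      rw [(gaussExt H).redF_of_mem (gaussExt H).O.one_mem]
      exact map_one _
    exact one_ne_zero (h4.symm.trans h3)
  have h5 := (gaussExt H).redF_inv h2
  rw [h1] at h5
  exact h2 (inv_eq_zero.1 h5.symm)

end Fermat.Agent.S43lib.LGC.KC
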