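/-
S43lib / LGC / KC / RR  (helper2)

**Riemann–Roch spaces of pulled back divisors in a Kummer-type extension** `M = M₀[ȳ]`,
`ȳ ^ e = ū`, of function fields over `𝕜 ∋ ζ` (a primitive `e`-th root of unity, `e ∈ 𝕜ˣ`):

  `L_M(π^* D) = ⊕_{j < e} ȳ^j · L_{M₀}(D + ⌊j · div(ū) / e⌋)`.

* `floorDiv ū j`            : the divisor `⌊j · div(ū) / e⌋` on `M₀`;
* `mul_pow_mem_rr_iff`      : `a ȳ^j ∈ L(π^* D) ↔ a ∈ L(D + ⌊j div(ū)/e⌋)`;
* `coord_mul_pow_mem_rr`    : the isotypic components of `f ∈ L(π^* D)` lie in `L(π^* D)`;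
* `rrEquiv`, `finrank_rr_pullback` : the decomposition and the dimension formula.
-/
import Fermat.Agent.S43lib.LGC.KC.Places
import Fermat.Agent.S18lib.Setup.CurveRR
import Fermat.Agent.S18lib.Cech.CurveBasics

set_option autoImplicit false
set_option linter.unusedSectionVars false
set_option linter.unusedVariables false

noncomputable section

namespace Fermat.Agent.S43lib.LGC.KC

open AlgebraicCurve Fermat.Agent.S18lib
open scoped Pointwise

variable {𝕜 M₀ M : Type*} [Field 𝕜] [Field M₀] [Field M] [Algebra 𝕜 M₀] [Algebra 𝕜 M]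
  [Algebra M₀ M] [IsScalarTower 𝕜 M₀ M] [Algebra.IsIntegral M₀ M]

/-! ### the divisor of a function and its floor multiples -/

section DivOf

variable [HasPrincipalDivisors 𝕜 M₀]

/-- the principal divisor of a nonzero function (`0` for the zero function) -/
def divOf (u : M₀) : Divisor 𝕜 M₀ :=
  letI := Classical.propDecidable
  if hu : u ≠ 0 then Classical.choose (HasPrincipalDivisors.exists_divisor (K := 𝕜) u hu) else 0

theorem divOf_apply {u : M₀} (hu : u ≠ 0) (P : Place 𝕜 M₀) : divOf (𝕜 := 𝕜) u P = P.ord u := by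
  classical
  rw [divOf, dif_pos hu]
  exact (Classical.choose_spec (HasPrincipalDivisors.exists_divisor (K := 𝕜) u hu)).1 P

theorem degree_divOf (u : M₀) : Divisor.degree (divOf (𝕜 := 𝕜) u) = 0 := by
  classical
  by_cases hu : u ≠ 0
  · rw [divOf, dif_pos hu]
    exact (Classical.choose_spec (HasPrincipalDivisors.exists_divisor (K := 𝕜) u hu)).2
  · rw [divOf, dif_neg hu, map_zero]

/-- the divisor `⌊j · div(u) / e⌋` -/
def floorDiv (e : ℕ) (u : M₀) (j : ℕ) : Divisor 𝕜 M₀ :=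
  (divOf (𝕜 := 𝕜) u).mapRange (fun m => ((j : ℤ) * m) / (e : ℤ)) (by simp)

theorem floorDiv_apply (e : ℕ) {u : M₀} (hu : u ≠ 0) (j : ℕ) (P : Place 𝕜 M₀) :
    floorDiv (𝕜 := 𝕜) e u j P = ((j : ℤ) * P.ord u) / (e : ℤ) := by
  rw [floorDiv, Finsupp.mapRange_apply, divOf_apply hu]

end DivOf

/-! ### one isotypic component -/

section Component

variable [HasPrincipalDivisors 𝕜 M₀] [HasPrincipalDivisors 𝕜 M] [FundamentalIdentity 𝕜 M₀ M]
variable {e : ℕ} {ubar : M₀} {ybar : M}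

/-- the integer inequality behind `mul_pow_mem_rr_iff` -/
theorem floor_ineq_iff {e : ℤ} (he : 0 < e) (r : ℤ) (hr : 0 < r) (d X j m t : ℤ)
    (ht : e * t = r * m) :
    -(r * d) ≤ r * X + j * t ↔ -(d + (j * m) / e) ≤ X := by
  -- multiply by `e`
  have h1 : -(r * d) ≤ r * X + j * t ↔ -(e * d) ≤ e * X + j * m := by
    constructor
    · intro h
      have h2 : e * (-(r * d)) ≤ e * (r * X + j * t) := mul_le_mul_of_nonneg_left h he.le
      have h3 : e * (r * X + j * t) = r * (e * X + j * m) := by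
        have : e * (j * t) = j * (e * t) := by ring
        rw [mul_add, this, ht]
        ring
      rw [h3] at h2
      have h4 : r * (-(e * d)) ≤ r * (e * X + j * m) := by
        have : e * (-(r * d)) = r * (-(e * d)) := by ring
        rwa [this] at h2
      exact le_of_mul_le_mul_left h4 hr
    · intro h
      have h4 : r * (-(e * d)) ≤ r * (e * X + j * m) := mul_le_mul_of_nonneg_left h hr.le
      have h3 : e * (r * X + j * t) = r * (e * X + j * m) := by
        have : e * (j * t) = j * (e * t) := by ring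
        rw [mul_add, this, ht]
        ring
      have h5 : e * (-(r * d)) ≤ e * (r * X + j * t) := by
        rw [h3]
        have : e * (-(r * d)) = r * (-(e * d)) := by ring
        rwa [this]
      exact le_of_mul_le_mul_left h5 he
  rw [h1]
  -- `-(e d) ≤ e X + j m ↔ -(d + X) * e ≤ j m ↔ -(d + X) ≤ (j m) / e`
  have h2 : -(e * d) ≤ e * X + j * m ↔ (-(d + X)) * e ≤ j * m := by
    constructor <;> intro h <;> nlinarith
  rw [h2, ← Int.le_ediv_iff_mul_le he]
  constructor <;> intro h <;> linarith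

/-- `a ȳ^j ∈ L(π^* D) ↔ a ∈ L(D + ⌊j div(ū)/e⌋)` -/
theorem mul_pow_mem_rr_iff (H : IsKummerGen e ubar ybar) (hu : ubar ≠ 0)
    (hdeg₀ : ∀ x : Place 𝕜 M₀, x.deg = 1) (D : Divisor 𝕜 M₀) (a : M₀) (j : ℕ) :
    algebraMap M₀ M a * ybar ^ j ∈ riemannRochSpace (Divisor.pullback M D) ↔
      a ∈ riemannRochSpace (D + floorDiv (𝕜 := 𝕜) e ubar j) := by
  rcases eq_or_ne a 0 with rfl | ha
  · rw [map_zero, zero_mul]
    exact ⟨fun _ => Submodule.zero_mem _, fun _ => Submodule.zero_mem _⟩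
  have hy : ybar ≠ 0 := H.gen_ne_zero hu
  have haM : algebraMap M₀ M a ≠ 0 := (map_ne_zero _).2 ha
  have hne : algebraMap M₀ M a * ybar ^ j ≠ 0 := mul_ne_zero haM (pow_ne_zero _ hy)
  have he : (0 : ℤ) < (e : ℤ) := by exact_mod_cast H.pos
  have hfr : 0 < Module.finrank M₀ M := by rw [H.finrank_eq]; exact H.pos
  rw [Cech.mem_rr_of_ne hne, Cech.mem_rr_of_ne ha]
  have key : ∀ w : Place 𝕜 M,
      (-(Divisor.pullback M D w) ≤ w.ord (algebraMap M₀ M a * ybar ^ j) ↔
        -((D + floorDiv (𝕜 := 𝕜) e ubar j) (w.restrict M₀)) ≤ (w.restrict M₀).ord a) := by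
    intro w
    have hr : (0 : ℤ) < (w.ramificationIndex M₀ : ℤ) := by
      exact_mod_cast w.ramificationIndex_pos (F := M₀)
    rw [Divisor.pullback_apply, w.ord_mul haM (pow_ne_zero _ hy), Cech.ord_pow, Place.ord_restrict,
      Finsupp.add_apply, floorDiv_apply e hu]
    exact floor_ineq_iff he _ hr _ _ _ _ _ (ord_gen_mul H w)
  constructor
  · intro h P
    obtain ⟨w, rfl⟩ := exists_restrict_eq (M := M) hfr hdeg₀ P
    exact (key w).1 (h w)
  · intro h w
    exact (key w).2 (h (w.restrict M₀))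

/-- deck transformations preserve `L(π^* D)` -/
theorem algEquiv_mem_rr (σ : M ≃ₐ[M₀] M) (D : Divisor 𝕜 M₀) {f : M}
    (hf : f ∈ riemannRochSpace (Divisor.pullback M D)) :
    σ f ∈ riemannRochSpace (Divisor.pullback M D) := by
  rw [mem_riemannRochSpace_iff] at hf ⊢
  intro w
  set σ' : M ≃ₐ[𝕜] M := σ.restrictScalars 𝕜 with hσ'
  have hw : w = σ' • (σ'⁻¹ • w) := (smul_inv_smul σ' w).symm
  rcases hf (σ'⁻¹ • w) with h0 | h1
  · left
    rw [h0, map_zero]
  · right
    have h2 : w.ord (σ f) = (σ'⁻¹ • w).ord f := by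
      conv_lhs => rw [hw]
      exact Place.ord_smul σ' (σ'⁻¹ • w) f
    have h3 : Divisor.pullback M D w = Divisor.pullback M D (σ'⁻¹ • w) := by
      conv_lhs => rw [hw]
      rw [Divisor.pullback_apply, Divisor.pullback_apply, hσ', restrict_smul,
        ramificationIndex_smul]
    rw [h2, h3]
    exact h1

theorem iterate_algEquiv_mem_rr (σ : M ≃ₐ[M₀] M) (D : Divisor 𝕜 M₀) {f : M}
    (hf : f ∈ riemannRochSpace (Divisor.pullback M D)) (i : ℕ) :
    σ^[i] f ∈ riemannRochSpace (Divisor.pullback M D) := by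
  induction i with
  | zero => exact hf
  | succ n ih =>
    rw [Function.iterate_succ_apply']
    exact algEquiv_mem_rr σ D ih

/-- the isotypic components of an element of `L(π^* D)` lie in `L(π^* D)` -/
theorem coord_mul_pow_mem_rr (H : IsKummerGen e ubar ybar) {ζ : 𝕜} (hζ : IsPrimitiveRoot ζ e)
    (he : (e : 𝕜) ≠ 0) (D : Divisor 𝕜 M₀) {f : M}
    (hf : f ∈ riemannRochSpace (Divisor.pullback M D)) (j : Fin e) :
    algebraMap M₀ M (H.coord f j) * ybar ^ (j : ℕ) ∈ riemannRochSpace (Divisor.pullback M D) := by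
  have hζ' : IsPrimitiveRoot (algebraMap 𝕜 M₀ ζ) e :=
    hζ.map_of_injective (algebraMap 𝕜 M₀).injective
  have h1 := H.sum_twisted_deck_pow hζ' (H.coord f) j
  rw [H.sumPow_coord] at h1
  -- the left hand side lies in `L(π^* D)`
  have hL : ∑ i ∈ Finset.range e, algebraMap M₀ M ((algebraMap 𝕜 M₀ ζ ^ (e - (j : ℕ))) ^ i) *
      (H.deck (algebraMap 𝕜 M₀ ζ) hζ'.pow_eq_one)^[i] f ∈
      riemannRochSpace (Divisor.pullback M D) := by
    refine Submodule.sum_mem _ fun i _ => ?_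
    have h2 := iterate_algEquiv_mem_rr (H.deck (algebraMap 𝕜 M₀ ζ) hζ'.pow_eq_one) D hf i
    have h3 : algebraMap M₀ M ((algebraMap 𝕜 M₀ ζ ^ (e - (j : ℕ))) ^ i) =
        algebraMap 𝕜 M ((ζ ^ (e - (j : ℕ))) ^ i) := by
      rw [← map_pow, ← map_pow, ← IsScalarTower.algebraMap_apply]
    rw [h3, ← Algebra.smul_def]
    exact Submodule.smul_mem _ _ h2
  rw [h1] at hL
  -- divide by `e`
  have h4 : algebraMap M₀ M (H.coord f j) * ybar ^ (j : ℕ) =
      ((e : 𝕜)⁻¹) • (algebraMap M₀ M ((e : M₀) * H.coord f j) * ybar ^ (j : ℕ)) := by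
    have : algebraMap M₀ M (e : M₀) = algebraMap 𝕜 M (e : 𝕜) := by
      rw [map_natCast, map_natCast]
    rw [Algebra.smul_def, map_mul, this, ← mul_assoc, ← mul_assoc, ← map_mul, inv_mul_cancel₀ he,
      map_one, one_mul]
  rw [h4]
  exact Submodule.smul_mem _ _ hL

end Component

/-! ### the decomposition -/

section Decomposition

variable [HasPrincipalDivisors 𝕜 M₀] [HasPrincipalDivisors 𝕜 M] [FundamentalIdentity 𝕜 M₀ M]
variable {e : ℕ} {ubar : M₀} {ybar : M}

/-- the map `(a_j) ↦ ∑ a_j ȳ^j` on the product of the Riemann–Roch spaces -/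
def rrSum (e : ℕ) (ubar : M₀) (ybar : M) (D : Divisor 𝕜 M₀) :
    ((j : Fin e) → riemannRochSpace (D + floorDiv (𝕜 := 𝕜) e ubar j)) →ₗ[𝕜] M where
  toFun a := ∑ j : Fin e, algebraMap M₀ M (a j : M₀) * ybar ^ (j : ℕ)
  map_add' a b := by
    simp only [Pi.add_apply, Submodule.coe_add, map_add, add_mul, Finset.sum_add_distrib]
  map_smul' c a := by
    show ∑ j : Fin e, algebraMap M₀ M (((c • a) j : riemannRochSpace _) : M₀) * ybar ^ (j : ℕ) =
      c • ∑ j : Fin e, algebraMap M₀ M (a j : M₀) * ybar ^ (j : ℕ)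
    rw [Finset.smul_sum]
    refine Finset.sum_congr rfl fun j _ => ?_
    show algebraMap M₀ M (c • (a j : M₀)) * _ = _
    rw [Algebra.smul_def c (a j : M₀), map_mul, ← IsScalarTower.algebraMap_apply, Algebra.smul_def,
      mul_assoc]

theorem rrSum_apply (D : Divisor 𝕜 M₀)
    (a : (j : Fin e) → riemannRochSpace (D + floorDiv (𝕜 := 𝕜) e ubar j)) :
    rrSum e ubar ybar D a = IsKummerGen.sumPow ybar (fun j => (a j : M₀)) := rfl

theorem rrSum_mem (H : IsKummerGen e ubar ybar) (hu : ubar ≠ 0)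
    (hdeg₀ : ∀ x : Place 𝕜 M₀, x.deg = 1) (D : Divisor 𝕜 M₀)
    (a : (j : Fin e) → riemannRochSpace (D + floorDiv (𝕜 := 𝕜) e ubar j)) :
    rrSum e ubar ybar D a ∈ riemannRochSpace (Divisor.pullback M D) := by
  show ∑ j : Fin e, algebraMap M₀ M (a j : M₀) * ybar ^ (j : ℕ) ∈
    riemannRochSpace (Divisor.pullback M D)
  refine Submodule.sum_mem _ fun j _ => ?_
  exact (mul_pow_mem_rr_iff H hu hdeg₀ D _ _).2 (a j).2

theorem rrSum_injective (H : IsKummerGen e ubar ybar) (D : Divisor 𝕜 M₀) :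
    Function.Injective (rrSum (𝕜 := 𝕜) e ubar ybar D) := by
  intro a b hab
  rw [rrSum_apply, rrSum_apply] at hab
  have := H.sumPow_injective hab
  funext j
  exact Subtype.ext (congrFun this j)

/-- **the decomposition** `⊕_j L(D + ⌊j div(ū)/e⌋) ≃ L(π^* D)` -/
def rrEquiv (H : IsKummerGen e ubar ybar) (hu : ubar ≠ 0) (hdeg₀ : ∀ x : Place 𝕜 M₀, x.deg = 1)
    {ζ : 𝕜} (hζ : IsPrimitiveRoot ζ e) (he : (e : 𝕜) ≠ 0) (D : Divisor 𝕜 M₀) :
    ((j : Fin e) → riemannRochSpace (D + floorDiv (𝕜 := 𝕜) e ubar j)) ≃ₗ[𝕜]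
      riemannRochSpace (Divisor.pullback M D) :=
  LinearEquiv.ofBijective
    ((rrSum e ubar ybar D).codRestrict _ (rrSum_mem H hu hdeg₀ D))
    ⟨fun a b hab => rrSum_injective H D (congrArg Subtype.val hab), by
      rintro ⟨f, hf⟩
      refine ⟨fun j => ⟨H.coord f j,
        (mul_pow_mem_rr_iff H hu hdeg₀ D _ _).1 (coord_mul_pow_mem_rr H hζ he D hf j)⟩, ?_⟩
      apply Subtype.ext
      show rrSum e ubar ybar D _ = f
      rw [rrSum_apply]
      exact H.sumPow_coord f⟩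

/-- **the dimension formula** -/
theorem finrank_rr_pullback (H : IsKummerGen e ubar ybar) (hu : ubar ≠ 0)
    (hdeg₀ : ∀ x : Place 𝕜 M₀, x.deg = 1) {ζ : 𝕜} (hζ : IsPrimitiveRoot ζ e) (he : (e : 𝕜) ≠ 0)
    (hfin : ∀ E : Divisor 𝕜 M₀, FiniteDimensional 𝕜 (riemannRochSpace E)) (D : Divisor 𝕜 M₀) :
    Module.finrank 𝕜 (riemannRochSpace (Divisor.pullback M D)) =
      ∑ j : Fin e, Module.finrank 𝕜 (riemannRochSpace (D + floorDiv (𝕜 := 𝕜) e ubar j)) := by
  have := hfin
  rw [← (rrEquiv H hu hdeg₀ hζ he D).finrank_eq, Module.finrank_pi_fintype]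

end Decomposition

end Fermat.Agent.S43lib.LGC.KC
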