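/-
S43lib / LGC / KC / Genus  (helper2)

**The genus of a Kummer-type cover** `M = M₀[ȳ]`, `ȳ ^ e = ū` (Theorem A):

  `g(M) - 1 = e (g(M₀) - 1) - ∑_{j < e} deg ⌊j · div(ū) / e⌋`,

from the decomposition `L_M(π^* D) = ⊕_j ȳ^j L_{M₀}(D + ⌊j div(ū)/e⌋)` (`KC/RR`) and Riemann's
theorem on both curves.  Consequences:

* `genus_of_unramified` : `e ∣ ord_P ū` for all `P` ⟹ `g - 1 = e (g₀ - 1)`;
* `genus_ge_of_nodes`   : `gcd(e, ord_{x c} ū) = 1` at `s` points ⟹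
                          `2 (g - 1) ≥ 2 e (g₀ - 1) + s (e - 1)`;
* `count_of_genera`     : the (COUNT) inequality of the cover from that of the base.
-/
import Fermat.Agent.S43lib.LGC.KC.RR
import Fermat.Agent.S36lib.Thick.DivTools

set_option autoImplicit false
set_option linter.unusedSectionVars false
set_option linter.unusedVariables false

noncomputable section

namespace Fermat.Agent.S43lib.LGC.KC

open AlgebraicCurve Fermat.Agent.S18lib
open scoped Pointwise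

variable {𝕜 M₀ M : Type*} [Field 𝕜] [Field M₀] [Field M] [Algebra 𝕜 M₀] [Algebra 𝕜 M]
  [Algebra M₀ M] [IsScalarTower 𝕜 M₀ M] [Algebra.IsIntegral M₀ M]

section Floor

variable [HasPrincipalDivisors 𝕜 M₀]

theorem floorDiv_zero (e : ℕ) (u : M₀) : floorDiv (𝕜 := 𝕜) e u 0 = 0 := by
  ext P
  rw [floorDiv, Finsupp.mapRange_apply]
  simp

theorem support_floorDiv_subset (e : ℕ) (u : M₀) (j : ℕ) :
    (floorDiv (𝕜 := 𝕜) e u j).support ⊆ (divOf (𝕜 := 𝕜) u).support :=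
  Finsupp.support_mapRange

theorem floorDiv_apply' (e : ℕ) (u : M₀) (j : ℕ) (P : Place 𝕜 M₀) :
    floorDiv (𝕜 := 𝕜) e u j P = ((j : ℤ) * divOf (𝕜 := 𝕜) u P) / (e : ℤ) := by
  rw [floorDiv, Finsupp.mapRange_apply]

/-- the degree of `⌊j div(u)/e⌋` as a sum over any finite set containing the support of
`div(u)` -/
theorem degree_floorDiv_eq_sum (hdeg₀ : ∀ x : Place 𝕜 M₀, x.deg = 1) (e : ℕ) (u : M₀) (j : ℕ)
    {S : Finset (Place 𝕜 M₀)} (hS : (divOf (𝕜 := 𝕜) u).support ⊆ S) :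
    Divisor.degree (floorDiv (𝕜 := 𝕜) e u j) =
      ∑ v ∈ S, ((j : ℤ) * divOf (𝕜 := 𝕜) u v) / (e : ℤ) := by
  rw [S36lib.Thick.degree_eq_sum_of_subset hdeg₀ _ ((support_floorDiv_subset e u j).trans hS)]
  exact Finset.sum_congr rfl fun v _ => floorDiv_apply' e u j v

/-- unramified case: all the floor divisors have degree `0` -/
theorem degree_floorDiv_of_dvd (hdeg₀ : ∀ x : Place 𝕜 M₀, x.deg = 1) {e : ℕ} (he : 0 < e)
    {u : M₀} (hu : u ≠ 0) (hdvd : ∀ P : Place 𝕜 M₀, (e : ℤ) ∣ P.ord u) (j : ℕ) :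
    Divisor.degree (floorDiv (𝕜 := 𝕜) e u j) = 0 := by
  have he' : (e : ℤ) ≠ 0 := by exact_mod_cast he.ne'
  have h0 := degree_divOf (𝕜 := 𝕜) u
  rw [S36lib.Thick.degree_eq_sum_of_subset hdeg₀ _ (Finset.Subset.refl _)] at h0
  rw [degree_floorDiv_eq_sum hdeg₀ e u j (Finset.Subset.refl _)]
  have h1 : ∀ v ∈ (divOf (𝕜 := 𝕜) u).support,
      ((j : ℤ) * divOf (𝕜 := 𝕜) u v) / (e : ℤ) = (j : ℤ) * (divOf (𝕜 := 𝕜) u v / (e : ℤ)) := by
    intro v _
    rw [divOf_apply hu]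
    exact Int.mul_ediv_assoc _ (hdvd v)
  rw [Finset.sum_congr rfl h1, ← Finset.mul_sum]
  have h2 : (e : ℤ) * ∑ v ∈ (divOf (𝕜 := 𝕜) u).support, divOf (𝕜 := 𝕜) u v / (e : ℤ) = 0 := by
    rw [Finset.mul_sum, ← h0]
    refine Finset.sum_congr rfl fun v _ => ?_
    rw [divOf_apply hu]
    exact Int.mul_ediv_cancel' (hdvd v)
  rcases mul_eq_zero.1 h2 with h | h
  · exact absurd h he'
  · rw [h, mul_zero]

/-- `⌊ja/e⌋ + ⌊(e-j)a/e⌋ ≤ a - 1` when `e ∤ j a` -/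
theorem ediv_add_ediv_lt {e : ℕ} (he : 0 < e) {j : ℕ} (hj : j ≤ e) (a : ℤ)
    (hnd : ¬ (e : ℤ) ∣ (j : ℤ) * a) :
    ((j : ℤ) * a) / (e : ℤ) + (((e - j : ℕ) : ℤ) * a) / (e : ℤ) ≤ a - 1 := by
  have he' : (0 : ℤ) < e := by exact_mod_cast he
  have h1 : ((j : ℤ) * a) / (e : ℤ) * e < (j : ℤ) * a := by
    rcases lt_or_eq_of_le (Int.ediv_mul_le ((j : ℤ) * a) he'.ne') with h | h
    · exact h
    · exact absurd (Dvd.intro_left _ h) hnd
  have h2 := Int.ediv_mul_le (((e - j : ℕ) : ℤ) * a) he'.ne'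
  have h3 : ((e - j : ℕ) : ℤ) = (e : ℤ) - j := by push_cast [hj]; ring
  rw [h3] at h2 ⊢
  have : (((j : ℤ) * a) / (e : ℤ) + (((e : ℤ) - j) * a) / (e : ℤ)) * e < a * e := by nlinarith
  have := lt_of_mul_lt_mul_right this he'.le
  omega

/-- coprimality gives non-divisibility for `0 < j < e` -/
theorem not_dvd_mul_of_isCoprime {e : ℕ} {j : ℕ} (hj0 : 0 < j) (hje : j < e) {a : ℤ}
    (hcop : IsCoprime (e : ℤ) a) : ¬ (e : ℤ) ∣ (j : ℤ) * a := by
  intro h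
  have h1 : (e : ℤ) ∣ (j : ℤ) := hcop.dvd_of_dvd_mul_right h
  have h2 : e ∣ j := by exact_mod_cast h1
  exact absurd (Nat.le_of_dvd hj0 h2) (by omega)

/-- the pair inequality at the level of degrees, with `s` coprime points -/
theorem degree_floorDiv_add_le (hdeg₀ : ∀ x : Place 𝕜 M₀, x.deg = 1) {e : ℕ} (he : 0 < e)
    {u : M₀} (hu : u ≠ 0) {s : ℕ} {x : Fin s → Place 𝕜 M₀} (hx : Function.Injective x)
    (hcop : ∀ c, IsCoprime (e : ℤ) ((x c).ord u)) {j : ℕ} (hj0 : 0 < j) (hje : j < e) :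
    Divisor.degree (floorDiv (𝕜 := 𝕜) e u j) + Divisor.degree (floorDiv (𝕜 := 𝕜) e u (e - j)) ≤
      -(s : ℤ) := by
  classical
  set S : Finset (Place 𝕜 M₀) := (divOf (𝕜 := 𝕜) u).support ∪ Finset.univ.image x with hS
  have hS1 : (divOf (𝕜 := 𝕜) u).support ⊆ S := Finset.subset_union_left
  have hS2 : Finset.univ.image x ⊆ S := Finset.subset_union_right
  rw [degree_floorDiv_eq_sum hdeg₀ e u j hS1, degree_floorDiv_eq_sum hdeg₀ e u (e - j) hS1,
    ← Finset.sum_add_distrib]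
  have h0 := degree_divOf (𝕜 := 𝕜) u
  rw [S36lib.Thick.degree_eq_sum_of_subset hdeg₀ _ hS1] at h0
  have hpt : ∀ v ∈ S, ((j : ℤ) * divOf (𝕜 := 𝕜) u v) / (e : ℤ) +
      (((e - j : ℕ) : ℤ) * divOf (𝕜 := 𝕜) u v) / (e : ℤ) ≤
      divOf (𝕜 := 𝕜) u v - (if v ∈ Finset.univ.image x then 1 else 0) := by
    intro v _
    split_ifs with hv
    · obtain ⟨c, _, rfl⟩ := Finset.mem_image.1 hv
      refine ediv_add_ediv_lt he hje.le _ ?_
      rw [divOf_apply hu]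
      exact not_dvd_mul_of_isCoprime hj0 hje (hcop c)
    · rw [sub_zero]
      exact S36lib.Thick.ediv_add_ediv_le he hje.le _
  refine (Finset.sum_le_sum hpt).trans ?_
  rw [Finset.sum_sub_distrib, h0, zero_sub, neg_le_neg_iff]
  rw [← Finset.sum_filter]
  have : S.filter (fun v => v ∈ Finset.univ.image x) = Finset.univ.image x := by
    ext v
    rw [Finset.mem_filter]
    exact ⟨fun h => h.2, fun h => ⟨hS2 h, h⟩⟩
  rw [this, Finset.sum_const, Finset.card_image_of_injective _ hx, Finset.card_univ,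
    Fintype.card_fin]
  simp

/-- **the node inequality**: `2 ∑_{j<e} deg ⌊j div(u)/e⌋ ≤ -(e-1) s` -/
theorem two_mul_sum_degree_floorDiv_le (hdeg₀ : ∀ x : Place 𝕜 M₀, x.deg = 1) {e : ℕ}
    (he : 0 < e) {u : M₀} (hu : u ≠ 0) {s : ℕ} {x : Fin s → Place 𝕜 M₀}
    (hx : Function.Injective x) (hcop : ∀ c, IsCoprime (e : ℤ) ((x c).ord u)) :
    2 * ∑ j : Fin e, Divisor.degree (floorDiv (𝕜 := 𝕜) e u j) ≤ -(((e : ℤ) - 1) * s) := by
  rw [Fin.sum_univ_eq_sum_range (fun j => Divisor.degree (floorDiv (𝕜 := 𝕜) e u j)) e]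
  obtain ⟨n, rfl⟩ : ∃ n, e = n + 1 := ⟨e - 1, by omega⟩
  rw [Finset.sum_range_succ']
  simp only [floorDiv_zero, map_zero, add_zero]
  have hrefl : ∑ i ∈ Finset.range n, Divisor.degree (floorDiv (𝕜 := 𝕜) (n + 1) u (i + 1)) =
      ∑ i ∈ Finset.range n, Divisor.degree (floorDiv (𝕜 := 𝕜) (n + 1) u (n + 1 - (i + 1))) := by
    rw [← Finset.sum_range_reflect]
    refine Finset.sum_congr rfl fun i hi => ?_
    have hi' := Finset.mem_range.1 hi
    congr 2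
    omega
  calc 2 * ∑ i ∈ Finset.range n, Divisor.degree (floorDiv (𝕜 := 𝕜) (n + 1) u (i + 1))
      = ∑ i ∈ Finset.range n, (Divisor.degree (floorDiv (𝕜 := 𝕜) (n + 1) u (i + 1)) +
          Divisor.degree (floorDiv (𝕜 := 𝕜) (n + 1) u (n + 1 - (i + 1)))) := by
        rw [Finset.sum_add_distrib, ← hrefl]; ring
    _ ≤ ∑ _i ∈ Finset.range n, (-(s : ℤ)) := by
        refine Finset.sum_le_sum fun i hi => ?_
        have hi' := Finset.mem_range.1 hi
        exact degree_floorDiv_add_le hdeg₀ he hu hx hcop (Nat.succ_pos i) (by omega)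
    _ = -((((n + 1 : ℕ) : ℤ) - 1) * s) := by
        rw [Finset.sum_const, Finset.card_range, nsmul_eq_mul]
        push_cast; ring

end Floor

/-! ### Theorem A -/

section Genus

variable [HasPrincipalDivisors 𝕜 M₀] [HasPrincipalDivisors 𝕜 M] [FundamentalIdentity 𝕜 M₀ M]
variable {e : ℕ} {ubar : M₀} {ybar : M}

/-- **Theorem A**: the genus of a Kummer-type cover -/
theorem genus_formula (H : IsKummerGen e ubar ybar) (hu : ubar ≠ 0) {g₀ g : ℕ}
    (h₀ : IsCurveOfGenus 𝕜 M₀ g₀) (h : IsCurveOfGenus 𝕜 M g) {ζ : 𝕜}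
    (hζ : IsPrimitiveRoot ζ e) (he : (e : 𝕜) ≠ 0) :
    (g : ℤ) - 1 = e * ((g₀ : ℤ) - 1) -
      ∑ j : Fin e, Divisor.degree (floorDiv (𝕜 := 𝕜) e ubar j) := by
  classical
  have hdeg₀ := h₀.deg_eq_one
  obtain ⟨P₀⟩ : Nonempty (Place 𝕜 M₀) := by
    have := h₀.infinite_places
    infer_instance
  -- a large multiple of `P₀`
  set B : ℤ := ∑ j : Fin e, |Divisor.degree (floorDiv (𝕜 := 𝕜) e ubar j)| with hB
  have hB0 : 0 ≤ B := Finset.sum_nonneg fun j _ => abs_nonneg _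
  obtain ⟨n, hn⟩ : ∃ n : ℕ, (n : ℤ) = 2 * g₀ + 2 * g + B + 1 :=
    ⟨(2 * g₀ + 2 * g + B + 1).toNat, Int.toNat_of_nonneg (by positivity)⟩
  set D : Divisor 𝕜 M₀ := Finsupp.single P₀ (n : ℤ) with hD
  have hdegD : Divisor.degree D = n := by
    rw [hD, Divisor.degree_single, hdeg₀]; simp
  have hfr : Module.finrank M₀ M = e := H.finrank_eq
  have hepos : (1 : ℤ) ≤ e := by exact_mod_cast H.pos
  -- upstairs
  have hup : (Module.finrank 𝕜 (riemannRochSpace (Divisor.pullback M D)) : ℤ) =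
      e * n + 1 - g := by
    have h1 := h.riemann_eq (Divisor.pullback M D)
    rw [Divisor.degree_pullback, hfr, hdegD] at h1
    refine h1 ?_
    nlinarith
  -- downstairs
  have hdown : ∀ j : Fin e,
      (Module.finrank 𝕜 (riemannRochSpace (D + floorDiv (𝕜 := 𝕜) e ubar j)) : ℤ) =
        n + Divisor.degree (floorDiv (𝕜 := 𝕜) e ubar j) + 1 - g₀ := by
    intro j
    have h1 := h₀.riemann_eq (D + floorDiv (𝕜 := 𝕜) e ubar j)
    rw [map_add, hdegD] at h1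
    refine h1 ?_
    have h2 : |Divisor.degree (floorDiv (𝕜 := 𝕜) e ubar j)| ≤ B :=
      Finset.single_le_sum (f := fun j : Fin e => |Divisor.degree (floorDiv (𝕜 := 𝕜) e ubar j)|)
        (fun j _ => abs_nonneg _) (Finset.mem_univ j)
    have h3 := neg_abs_le (Divisor.degree (floorDiv (𝕜 := 𝕜) e ubar j))
    linarith
  have hmain := finrank_rr_pullback H hu hdeg₀ hζ he h₀.finiteDimensional D
  have hmain' : (Module.finrank 𝕜 (riemannRochSpace (Divisor.pullback M D)) : ℤ) =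
      ∑ j : Fin e,
        (Module.finrank 𝕜 (riemannRochSpace (D + floorDiv (𝕜 := 𝕜) e ubar j)) : ℤ) := by
    rw [hmain]; push_cast; rfl
  rw [hup, Finset.sum_congr rfl fun j _ => hdown j] at hmain'
  simp only [Finset.sum_add_distrib, Finset.sum_sub_distrib, Finset.sum_const, Finset.card_univ,
    Fintype.card_fin, nsmul_eq_mul] at hmain'
  linarith

/-- the unramified case -/
theorem genus_of_unramified (H : IsKummerGen e ubar ybar) (hu : ubar ≠ 0) {g₀ g : ℕ}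
    (h₀ : IsCurveOfGenus 𝕜 M₀ g₀) (h : IsCurveOfGenus 𝕜 M g) {ζ : 𝕜}
    (hζ : IsPrimitiveRoot ζ e) (he : (e : 𝕜) ≠ 0)
    (hdvd : ∀ P : Place 𝕜 M₀, (e : ℤ) ∣ P.ord ubar) :
    (g : ℤ) - 1 = e * ((g₀ : ℤ) - 1) := by
  rw [genus_formula H hu h₀ h hζ he, Finset.sum_eq_zero, sub_zero]
  intro j _
  exact degree_floorDiv_of_dvd h₀.deg_eq_one H.pos hu hdvd j

/-- the node case -/
theorem genus_ge_of_nodes (H : IsKummerGen e ubar ybar) (hu : ubar ≠ 0) {g₀ g : ℕ}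
    (h₀ : IsCurveOfGenus 𝕜 M₀ g₀) (h : IsCurveOfGenus 𝕜 M g) {ζ : 𝕜}
    (hζ : IsPrimitiveRoot ζ e) (he : (e : 𝕜) ≠ 0) {s : ℕ} {x : Fin s → Place 𝕜 M₀}
    (hx : Function.Injective x) (hcop : ∀ c, IsCoprime (e : ℤ) ((x c).ord ubar)) :
    2 * e * ((g₀ : ℤ) - 1) + ((e : ℤ) - 1) * s ≤ 2 * ((g : ℤ) - 1) := by
  have h1 := genus_formula H hu h₀ h hζ he
  have h2 := two_mul_sum_degree_floorDiv_le h₀.deg_eq_one H.pos hu hx hcop
  linarith

end Genus

/-- **(COUNT) for the cover** from (COUNT) for the base, the genus of the generic fibre of the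
unramified cover and the node inequalities on the two components -/
theorem count_of_genera {e s g₀ g₁ g₂ g g₁' g₂' : ℕ} (he : 0 < e)
    (hg : (g : ℤ) - 1 = e * ((g₀ : ℤ) - 1))
    (hg₁ : 2 * e * ((g₁ : ℤ) - 1) + ((e : ℤ) - 1) * s ≤ 2 * ((g₁' : ℤ) - 1))
    (hg₂ : 2 * e * ((g₂ : ℤ) - 1) + ((e : ℤ) - 1) * s ≤ 2 * ((g₂' : ℤ) - 1))
    (hcount : g₀ + 1 ≤ g₁ + g₂ + s) : g + 1 ≤ g₁' + g₂' + s := by
  have he' : (1 : ℤ) ≤ e := by exact_mod_cast he
  have hc : (g₀ : ℤ) + 1 ≤ g₁ + g₂ + s := by exact_mod_cast hcount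
  have h1 : (e : ℤ) * ((g₀ : ℤ) - 1) ≤ e * ((g₁ : ℤ) + g₂ - 2 + s) :=
    mul_le_mul_of_nonneg_left (by linarith) (by linarith)
  have : (g : ℤ) + 1 ≤ g₁' + g₂' + s := by nlinarith
  exact_mod_cast this

end Fermat.Agent.S43lib.LGC.KC
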