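/-
S43lib / LGC / KC / Glue  (helper2)

**(GLUE) for a Kummer cover by the trace.**  `F = F₀[h₁] = F₀[h₂]`, `δ : h_i ↦ ζ h_i` the deck
transformation.  For `f ∈ L(π^* E) ∩ O₁' ∩ O₂'` the trace `g₀ = ∑_i δ^i f` lies in
`L(E) ∩ O₁ ∩ O₂` and `red_i g₀ = ∑_i δ̄_i^i (red_i' f)`.  At a totally ramified point `w_i` of the
`i`-th component (fixed by `δ̄_i`) all the conjugates `δ̄_i^i (red_i' f)` have the same value `α_i`,
so `red_i g₀` has the value `e α_i` at the point below; (GLUE) for the base gives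
`e α₁ = e α₂`, hence `α₁ = α₂`.
-/
import Fermat.Agent.S43lib.LGC.KC.Action
import Fermat.Agent.S43lib.LGC.KC.RR
import Fermat.Agent.S43lib.LGC.KC.Genus
import Fermat.Agent.LSb.Core.Value

set_option autoImplicit false
set_option linter.unusedSectionVars false
set_option linter.unusedVariables false

noncomputable section

namespace Fermat.Agent.S43lib.LGC.KC

open Polynomial AlgebraicCurve Fermat.Agent.S18lib Fermat.Agent.LSb
open scoped Pointwise

/-! ### field theory: the trace -/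

section Trace

variable {E₀ E : Type*} [Field E₀] [Field E] [Algebra E₀ E] {e : ℕ} {u : E₀} {h : E}

/-- the trace of `f` is an element of the base field -/
theorem IsKummerGen.exists_trace (H : IsKummerGen e u h) {ζ : E₀} (hζ : IsPrimitiveRoot ζ e)
    (f : E) :
    ∃ g₀ : E₀, algebraMap E₀ E g₀ = ∑ i ∈ Finset.range e, (H.deck ζ hζ.pow_eq_one)^[i] f := by
  refine ⟨(e : E₀) * H.coord f ⟨0, H.pos⟩, ?_⟩
  rw [← H.sum_deck_pow hζ, H.sumPow_coord]

/-- two Kummer generators with ratio in the base field have the same deck transformations -/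
theorem IsKummerGen.deck_eq_of_ratio {u' : E₀} {h' : E} (H : IsKummerGen e u h)
    (H' : IsKummerGen e u' h') {v : E₀} (hv : v ≠ 0) (hh : h' = algebraMap E₀ E v * h) (ζ : E₀)
    (hζ : ζ ^ e = 1) : H.deck ζ hζ = H'.deck ζ hζ := by
  have h1 : (H.deck ζ hζ : E →ₐ[E₀] E) = (H'.deck ζ hζ : E →ₐ[E₀] E) := by
    apply H.algHom_ext
    have hvE : algebraMap E₀ E v ≠ 0 := (_root_.map_ne_zero _).2 hv
    have hh' : h = algebraMap E₀ E v⁻¹ * h' := by
      rw [hh, ← mul_assoc, ← map_mul, inv_mul_cancel₀ hv, map_one, one_mul]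
    show H.deck ζ hζ h = H'.deck ζ hζ h
    rw [H.deck_gen]
    conv_rhs => rw [hh', map_mul, AlgEquiv.commutes, H'.deck_gen]
    rw [hh, map_inv₀]
    field_simp
  ext x
  exact congrArg (fun φ : E →ₐ[E₀] E => φ x) h1

end Trace

/-! ### values at fixed points -/

section Values

variable {𝕜 M : Type*} [Field 𝕜] [Field M] [Algebra 𝕜 M]

theorem hasValueAt_iterate {σ : M ≃ₐ[𝕜] M} {w : Place 𝕜 M} (hw : σ • w = w) {z : M} {c : 𝕜}
    (hz : HasValueAt w z c) (i : ℕ) : HasValueAt w (σ^[i] z) c := by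
  induction i with
  | zero => exact hz
  | succ n ih =>
    rw [Function.iterate_succ_apply']
    have := (hasValueAt_algEquiv_iff σ w (σ^[n] z) c).2 ih
    rwa [hw] at this

theorem hasValueAt_sum_range {w : Place 𝕜 M} (n : ℕ) (z : ℕ → M) {c : 𝕜}
    (hz : ∀ i, HasValueAt w (z i) c) :
    HasValueAt w (∑ i ∈ Finset.range n, z i) ((n : 𝕜) * c) := by
  induction n with
  | zero => simpa using hasValueAt_zero (Q := w)
  | succ n ih =>
    rw [Finset.sum_range_succ]
    have := ih.add (hz n)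
    convert this using 1
    push_cast; ring

end Values

/-! ### the trace in the Gauss setting -/

variable {L : Type*} [Field L] {A : ValuationSubring L}
variable {F₀ : Type*} [Field F₀] [Algebra L F₀]
variable {K₁ K₂ : Type*} [Field K₁] [Field K₂]
variable [Algebra (IsLocalRing.ResidueField A) K₁] [Algebra (IsLocalRing.ResidueField A) K₂]
variable {F : Type*} [Field F] [Algebra L F] [Algebra F₀ F] [IsScalarTower L F₀ F]
variable {K₁' K₂' : Type*} [Field K₁'] [Field K₂']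
variable [Algebra (IsLocalRing.ResidueField A) K₁'] [Algebra K₁ K₁']
variable [IsScalarTower (IsLocalRing.ResidueField A) K₁ K₁']
variable [Algebra (IsLocalRing.ResidueField A) K₂'] [Algebra K₂ K₂']
variable [IsScalarTower (IsLocalRing.ResidueField A) K₂ K₂']

local notation "k" => IsLocalRing.ResidueField A

section OneComponent

variable {K₀ K : Type*} [Field K₀] [Field K]
  [Algebra (IsLocalRing.ResidueField A) K₀] [Algebra (IsLocalRing.ResidueField A) K]
  [Algebra K₀ K] [IsScalarTower (IsLocalRing.ResidueField A) K₀ K] {D₀ : GaussDatum A F₀ K₀}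
  {e : ℕ} {u : F₀} {h : F} {ybar : K}

theorem iterate_deckF_mem (H : KummerLift D₀ e u h ybar) (ζ : A) (hζ : ζ ^ e = 1) {f : F}
    (hf : f ∈ (gaussExt H).O) (i : ℕ) : (deckF H ζ hζ)^[i] f ∈ (gaussExt H).O := by
  induction i with
  | zero => exact hf
  | succ n ih =>
    rw [Function.iterate_succ_apply']
    exact deckF_mem_gaussExt H ζ hζ ih

theorem redF_iterate_deckF (H : KummerLift D₀ e u h ybar) (ζ : A) (hζ : ζ ^ e = 1) {f : F}
    (hf : f ∈ (gaussExt H).O) (i : ℕ) :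
    (gaussExt H).redF ((deckF H ζ hζ)^[i] f) = (deckK H ζ hζ)^[i] ((gaussExt H).redF f) := by
  induction i with
  | zero => rfl
  | succ n ih =>
    rw [Function.iterate_succ_apply', Function.iterate_succ_apply',
      redF_gaussExt_deckF H ζ hζ (iterate_deckF_mem H ζ hζ hf n), ih]

/-- the trace lies in `D₀.O` and reduces to the trace of the reduction -/
theorem trace_mem_and_red (H : KummerLift D₀ e u h ybar) (ζ : A) (hζ : ζ ^ e = 1) {f : F}
    (hf : f ∈ (gaussExt H).O) {g₀ : F₀}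
    (hg : algebraMap F₀ F g₀ = ∑ i ∈ Finset.range e, (deckF H ζ hζ)^[i] f) :
    g₀ ∈ D₀.O ∧ algebraMap K₀ K (D₀.redF g₀) =
      ∑ i ∈ Finset.range e, (deckK H ζ hζ)^[i] ((gaussExt H).redF f) := by
  have hmem : ∀ i ∈ Finset.range e, (deckF H ζ hζ)^[i] f ∈ (gaussExt H).O :=
    fun i _ => iterate_deckF_mem H ζ hζ hf i
  constructor
  · rw [← algebraMap_mem_gaussExt_iff H, hg]
    exact (gaussExt H).O.sum_mem hmem
  · rw [← redF_gaussExt_algebraMap H, hg, (gaussExt H).redF_sum _ _ hmem]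
    exact Finset.sum_congr rfl fun i _ => redF_iterate_deckF H ζ hζ hf i

/-- the value of the reduced trace at the point below a totally ramified point -/
theorem hasValueAt_red_trace [HasPrincipalDivisors k K] [Algebra.IsIntegral K₀ K]
    [FundamentalIdentity k K₀ K]
    (H : KummerLift D₀ e u h ybar) (ζ : A) (hζ : ζ ^ e = 1)
    (hdeg : ∀ w : Place k K, w.deg = 1) (hdeg₀ : ∀ x : Place k K₀, x.deg = 1) {f : F}
    (hf : f ∈ (gaussExt H).O) {g₀ : F₀}
    (hg : algebraMap F₀ F g₀ = ∑ i ∈ Finset.range e, (deckF H ζ hζ)^[i] f)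
    {w : Place k K} (hw : IsCoprime (e : ℤ) ((w.restrict K₀).ord (D₀.redF u))) {α : k}
    (hα : HasValueAt w ((gaussExt H).redF f) α) :
    HasValueAt (w.restrict K₀) (D₀.redF g₀) ((e : k) * α) := by
  rw [← hasValueAt_algebraMap_iff, (trace_mem_and_red H ζ hζ hf hg).2]
  set σ : K ≃ₐ[k] K := (deckK H ζ hζ).restrictScalars k with hσ
  have hfix : σ • w = w := smul_eq_of_isCoprime H.genbar hdeg hdeg₀ hw (deckK H ζ hζ)
  have h1 : ∀ i, (deckK H ζ hζ)^[i] ((gaussExt H).redF f) = σ^[i] ((gaussExt H).redF f) := by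
    intro i
    induction i with
    | zero => rfl
    | succ n ih => rw [Function.iterate_succ_apply', Function.iterate_succ_apply', ih]; rfl
  simp_rw [h1]
  exact hasValueAt_sum_range e _ fun i => hasValueAt_iterate hfix hα i

end OneComponent

/-! ### the two components -/

section Two

variable {D1 : GaussDatum A F₀ K₁} {D2 : GaussDatum A F₀ K₂}
variable {e : ℕ} {u₁ u₂ : F₀} {h₁ h₂ : F} {ybar₁ : K₁'} {ybar₂ : K₂'}

theorem deckF_eq_of_ratio (H₁ : KummerLift D1 e u₁ h₁ ybar₁) (H₂ : KummerLift D2 e u₂ h₂ ybar₂)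
    {v : F₀} (hv : v ≠ 0) (hh : h₂ = algebraMap F₀ F v * h₁) (ζ : A) (hζ : ζ ^ e = 1) :
    deckF H₁ ζ hζ = deckF H₂ ζ hζ :=
  H₁.gen.deck_eq_of_ratio H₂.gen hv hh _ _

variable [HasPrincipalDivisors L F₀] [HasPrincipalDivisors L F] [Algebra.IsIntegral F₀ F]
  [FundamentalIdentity L F₀ F]

/-- **the trace datum**: `g₀ ∈ L(E) ∩ O₁ ∩ O₂` with `algebraMap g₀ = ∑ δ^i f` -/
theorem exists_trace_datum (H₁ : KummerLift D1 e u₁ h₁ ybar₁) (H₂ : KummerLift D2 e u₂ h₂ ybar₂)
    {v : F₀} (hv : v ≠ 0) (hh : h₂ = algebraMap F₀ F v * h₁) (ζ : A) (hζ : ζ ^ e = 1)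
    (hζL : IsPrimitiveRoot (ζ : L) e) (hu₁ : u₁ ≠ 0) (hdeg₀ : ∀ x : Place L F₀, x.deg = 1)
    (E : Divisor L F₀) {f : F} (hfE : f ∈ riemannRochSpace (Divisor.pullback F E))
    (hf1 : f ∈ (gaussExt H₁).O) (hf2 : f ∈ (gaussExt H₂).O) :
    ∃ g₀ : F₀, g₀ ∈ riemannRochSpace E ∧
      algebraMap F₀ F g₀ = ∑ i ∈ Finset.range e, (deckF H₁ ζ hζ)^[i] f ∧
      algebraMap F₀ F g₀ = ∑ i ∈ Finset.range e, (deckF H₂ ζ hζ)^[i] f := by
  have hζF : IsPrimitiveRoot (zetaF ζ : F₀) e :=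
    hζL.map_of_injective (algebraMap L F₀).injective
  obtain ⟨g₀, hg⟩ := H₁.gen.exists_trace hζF f
  have hg1 : algebraMap F₀ F g₀ = ∑ i ∈ Finset.range e, (deckF H₁ ζ hζ)^[i] f := hg
  refine ⟨g₀, ?_, hg1, ?_⟩
  · have h1 : algebraMap F₀ F g₀ * h₁ ^ 0 ∈ riemannRochSpace (Divisor.pullback F E) := by
      rw [pow_zero, mul_one, hg1]
      exact Submodule.sum_mem _ fun i _ => iterate_algEquiv_mem_rr _ E hfE i
    have h2 := (mul_pow_mem_rr_iff H₁.gen hu₁ hdeg₀ E g₀ 0).1 h1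
    rwa [floorDiv_zero, add_zero] at h2
  · rw [← deckF_eq_of_ratio H₁ H₂ hv hh ζ hζ]
    exact hg1

end Two

end Fermat.Agent.S43lib.LGC.KC
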